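/-
S24 skeleton, owner helper144.  Basic definitions and the interface between the
algebraic part (counting places) and the analytic part (uniformisation by the upper half plane).
-/
import Mathlib
import Fermat.Prelude.Def_ModularCurve_ArithmeticGalois
import Fermat.Prelude.Def_ModularCurve_GenusNumerics
import Fermat.Prelude.Def_AlgebraicCurve_CanonicalDivisor

set_option autoImplicit false

namespace Fermat.Agent.S24

open AlgebraicCurve ModularCurve IntermediateField
open scoped MatrixGroups WithZero

/-- `ℚ̄`. -/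
abbrev Kbar : Type := AlgebraicClosure ℚ

/-- The function field of `X₀(N)` over `ℚ̄` (as a type). -/
abbrev FN (N : ℕ) : Type := ↥(modularFunctionFieldBar N)

/-- The formal series `j(q^d)` with coefficients in `ℚ̄`. -/
noncomputable def Jser (d : ℕ) [NeZero d] : LaurentSeries Kbar := coeffEmb Kbar (qExpand ℚ d jq)

theorem Jser_mem {N d : ℕ} [NeZero d] (hd : d ∣ N) : Jser d ∈ modularFunctionFieldBar N :=
  coeffEmb_mem_laurentBaseChange Kbar (jqd_mem_full N hd)

/-- `j(q^d)` as an element of the function field of `X₀(N)`, for `d ∣ N`. -/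
noncomputable def JF (N d : ℕ) [NeZero d] (hd : d ∣ N) : FN N := ⟨Jser d, Jser_mem hd⟩

/-- `j` as an element of the function field of `X₀(N)`. -/
noncomputable def jF (N : ℕ) : FN N := JF N 1 (one_dvd N)

/-- Number of orbits of the cyclic group generated by `δ` on `X`. -/
noncomputable def orb {G : Type*} [Group G] (X : Type*) [MulAction G X] (δ : G) : ℕ :=
  Nat.card (MulAction.orbitRel.Quotient (Subgroup.zpowers δ) X)

section Abstract

variable {K F L G : Type*} [Field K] [Field F] [Algebra K F] [Field L] [Algebra K L]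
  [Group G] [MulSemiringAction G L]

/-- Abstract "uniformisation": `F` embeds in a field `L` with an action of a group `G` such that
`F` is fixed exactly by `H`, and the `G`-invariants of `L` are `K(x)`. -/
structure IsUniformization (x : F) (H : Subgroup G) (Ψ : F →ₐ[K] L) : Prop where
  smul_algebraMap : ∀ (γ : G) (a : K), γ • algebraMap K L a = algebraMap K L a
  smul_of_mem : ∀ γ ∈ H, ∀ f : F, γ • Ψ f = Ψ f
  smul_x : ∀ γ : G, γ • Ψ x = Ψ x
  mem_of_smul : ∀ γ : G, (∀ f : F, γ • Ψ f = Ψ f) → γ ∈ H
  invariants : ∀ g : L, (∀ γ : G, γ • g = g) → ∃ r ∈ K⟮x⟯, Ψ r = g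

/-- Abstract "point of the base curve": a `ℤ`-valued valuation `V` on `L`, invariant under `δ`,
for which the local parameter `y` of the base has valuation `E`, and such that the elements
invariant under `δ ^ k` have valuation divisible by `E / gcd (E, k)`. -/
structure IsPointDatum (Ψ : F →ₐ[K] L) (y : F) (V : Valuation L ℤᵐ⁰) (δ : G) (E : ℕ) : Prop where
  E_pos : 0 < E
  V_algebraMap : ∀ a : K, a ≠ 0 → V (algebraMap K L a) = 1
  V_y : V (Ψ y) = WithZero.exp (-(E : ℤ))
  V_smul : ∀ g : L, V (δ • g) = V g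
  V_dvd : ∀ (k : ℕ) (g : L), g ≠ 0 → δ ^ k • g = g →
    ∃ m : ℤ, V g = WithZero.exp (((E / Nat.gcd E k : ℕ) : ℤ) * m)

end Abstract

/-- The analytic deliverable: uniformisation of `X₀(N)` together with the four kinds of points
of `X(1)`. -/
structure Uniformization (N : ℕ) [NeZero N] : Type 1 where
  L : Type
  [instField : Field L]
  [instAlgebra : Algebra Kbar L]
  [instAction : MulSemiringAction SL(2, ℤ) L]
  Ψ : FN N →ₐ[Kbar] L
  isUniformization : IsUniformization (jF N) (CongruenceSubgroup.Gamma0 N) Ψ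
  generic : ∀ c : Kbar, c ≠ 0 → c ≠ 1728 →
    ∃ V : Valuation L ℤᵐ⁰, IsPointDatum Ψ (jF N - algebraMap Kbar (FN N) c) V (1 : SL(2, ℤ)) 1
  atI : ∃ V : Valuation L ℤᵐ⁰,
    IsPointDatum Ψ (jF N - algebraMap Kbar (FN N) 1728) V ModularGroup.S 2
  atRho : ∃ V : Valuation L ℤᵐ⁰,
    IsPointDatum Ψ (jF N - algebraMap Kbar (FN N) 0) V (ModularGroup.S * ModularGroup.T) 3
  atInfty : ∃ V : Valuation L ℤᵐ⁰, IsPointDatum Ψ (jF N)⁻¹ V ModularGroup.T N

attribute [instance] Uniformization.instField Uniformization.instAlgebra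
  Uniformization.instAction

end Fermat.Agent.S24
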