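import Mathlib
import Fermat.Prelude.Def_AlgebraicCurve_DivisorClassGroup

/-!
# S24, part (A): basic API for `AlgebraicCurve.Place.ord`
Owner: helper264.
-/

set_option autoImplicit false

noncomputable section

namespace Fermat.Agent.S24.FF

open AlgebraicCurve IsDedekindDomain WithZero

variable {K F : Type*} [Field K] [Field F] [Algebra K F] (v : Place K F)

theorem ord_nonneg_of_mem {f : F} (hf : f ∈ v.toValuationSubring) : 0 ≤ v.ord f := by
  rcases eq_or_ne f 0 with rfl | hf0
  · simp
  obtain ⟨π, hπ⟩ := IsDiscreteValuationRing.exists_irreducible v.toValuationSubring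
  obtain ⟨n, u, hu⟩ :=
    IsDiscreteValuationRing.eq_unit_mul_pow_irreducible
      (x := (⟨f, hf⟩ : v.toValuationSubring)) (by simpa [Subtype.ext_iff] using hf0) hπ
  have hcoe : f = ((u : v.toValuationSubring) : F) * ((π : F) ^ (n : ℤ)) := by
    have h := congrArg (Subtype.val) hu
    push_cast at h
    rw [zpow_natCast]
    exact h
  rw [hcoe, v.ord_unit_smul_zpow u hπ (n : ℤ)]
  exact Int.natCast_nonneg n

theorem mem_of_ord_nonneg {f : F} (h : 0 ≤ v.ord f) :
    f ∈ v.toValuationSubring := by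
  rcases eq_or_ne f 0 with rfl | hf
  · exact zero_mem _
  obtain ⟨π, hπ⟩ := IsDiscreteValuationRing.exists_irreducible v.toValuationSubring
  obtain ⟨u, hu⟩ := v.exists_unit_mul_zpow hf hπ
  rw [hu, show v.ord f = (((v.ord f).toNat : ℕ) : ℤ) from (Int.toNat_of_nonneg h).symm,
    zpow_natCast]
  exact mul_mem (u : v.toValuationSubring).2 (pow_mem (π : v.toValuationSubring).2 _)

theorem mem_iff_ord_nonneg {f : F} :
    f ∈ v.toValuationSubring ↔ 0 ≤ v.ord f :=
  ⟨ord_nonneg_of_mem v, mem_of_ord_nonneg v⟩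

theorem adicValuation_eq_exp_neg_ord {f : F} (hf : f ≠ 0) :
    v.adicValuation f = exp (-v.ord f) := by
  unfold Place.ord
  rw [neg_neg, exp_log (v.adicValuation_ne_zero hf)]

/-- ultrametric inequality -/
theorem min_ord_le_ord_add {f g : F} (hfg : f + g ≠ 0) :
    min (v.ord f) (v.ord g) ≤ v.ord (f + g) := by
  rcases eq_or_ne f 0 with rfl | hf
  · simp
  rcases eq_or_ne g 0 with rfl | hg
  · simp
  have h := v.adicValuation.map_add f g
  rw [adicValuation_eq_exp_neg_ord v hf, adicValuation_eq_exp_neg_ord v hg,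
    adicValuation_eq_exp_neg_ord v hfg] at h
  rcases le_max_iff.mp h with h | h
  · rw [exp_le_exp] at h
    exact (min_le_left _ _).trans (by omega)
  · rw [exp_le_exp] at h
    exact (min_le_right _ _).trans (by omega)

theorem ord_neg (f : F) : v.ord (-f) = v.ord f := by
  simp [Place.ord]

theorem ord_add_eq_of_lt {f g : F} (hf : f ≠ 0) (h : v.ord f < v.ord g) :
    v.ord (f + g) = v.ord f := by
  have hfg : f + g ≠ 0 := by
    intro h0
    have : f = -g := eq_neg_of_add_eq_zero_left h0
    rw [this, ord_neg] at h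
    exact lt_irrefl _ h
  apply le_antisymm
  · have h1 := min_ord_le_ord_add v (f := f + g) (g := -g) (by simpa using hf)
    rw [add_neg_cancel_right, ord_neg] at h1
    rcases min_le_iff.mp h1 with h2 | h2
    · exact h2
    · omega
  · have := min_ord_le_ord_add v hfg
    rwa [min_eq_left h.le] at this

theorem ord_algebraMap (a : K) : v.ord (algebraMap K F a) = 0 := by
  rcases eq_or_ne a 0 with rfl | ha
  · simp
  have h1 := ord_nonneg_of_mem v (v.algebraMap_mem' a)
  have h2 := ord_nonneg_of_mem v (v.algebraMap_mem' a⁻¹)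
  rw [map_inv₀, v.ord_inv] at h2
  omega

theorem ord_pow (f : F) (n : ℕ) : v.ord (f ^ n) = n * v.ord f := by
  have := v.ord_zpow f n
  simpa using this

theorem exists_ord_eq_one : ∃ π : F, v.ord π = 1 := by
  obtain ⟨π, hπ⟩ := IsDiscreteValuationRing.exists_irreducible v.toValuationSubring
  exact ⟨π, v.ord_coe_irreducible hπ⟩

theorem ne_zero_of_ord_ne_zero {f : F} (h : v.ord f ≠ 0) : f ≠ 0 := by
  rintro rfl
  simp at h

/-- Two places with the same nonnegativity locus are equal. -/
theorem place_ext_of_ord_nonneg {v w : Place K F}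
    (h : ∀ f : F, 0 ≤ v.ord f ↔ 0 ≤ w.ord f) : v = w := by
  apply Place.ext
  ext f
  rw [mem_iff_ord_nonneg, mem_iff_ord_nonneg, h]

/-- **Uniqueness of the normalised order function.**  If `φ : F → ℤ` is additive on products of
nonzero elements and `0 ≤ φ f ↔ f ∈ O_v`, then `φ = m * ord_v` with `m = φ π > 0`. -/
theorem exists_eq_mul_ord (φ : F → ℤ)
    (hmul : ∀ f g : F, f ≠ 0 → g ≠ 0 → φ (f * g) = φ f + φ g)
    (hmem : ∀ f : F, f ≠ 0 → (0 ≤ φ f ↔ f ∈ v.toValuationSubring)) :
    ∃ m : ℤ, 0 < m ∧ ∀ f : F, f ≠ 0 → φ f = m * v.ord f := by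
  obtain ⟨π, hπ⟩ := IsDiscreteValuationRing.exists_irreducible v.toValuationSubring
  have hπ0 : (π : F) ≠ 0 := by
    simpa [ne_eq, ZeroMemClass.coe_eq_zero] using hπ.ne_zero
  have h1 : φ 1 = 0 := by
    have := hmul 1 1 one_ne_zero one_ne_zero
    rw [one_mul] at this
    omega
  have hinv : ∀ f : F, f ≠ 0 → φ f⁻¹ = - φ f := by
    intro f hf
    have := hmul f f⁻¹ hf (inv_ne_zero hf)
    rw [mul_inv_cancel₀ hf, h1] at this
    omega
  have hzpow : ∀ (f : F), f ≠ 0 → ∀ n : ℤ, φ (f ^ n) = n * φ f := by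
    intro f hf n
    induction n using Int.induction_on with
    | zero => simp [h1]
    | succ n ih =>
      rw [zpow_add_one₀ hf, hmul _ _ (zpow_ne_zero _ hf) hf, ih]; ring
    | pred n ih =>
      rw [zpow_sub_one₀ hf, hmul _ _ (zpow_ne_zero _ hf) (inv_ne_zero hf), ih, hinv f hf]; ring
  have hunit : ∀ u : v.toValuationSubringˣ, φ ((u : v.toValuationSubring) : F) = 0 := by
    intro u
    have hu0 : ((u : v.toValuationSubring) : F) ≠ 0 := by
      simp [ne_eq, ZeroMemClass.coe_eq_zero]
    have a1 := (hmem _ hu0).mpr (u : v.toValuationSubring).2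
    have hinv' : (((u⁻¹ : v.toValuationSubringˣ) : v.toValuationSubring) : F)
        = ((u : v.toValuationSubring) : F)⁻¹ := by
      apply eq_inv_of_mul_eq_one_left
      have h3 : (((u⁻¹ : v.toValuationSubringˣ) : v.toValuationSubring) * (u : v.toValuationSubring)
          : v.toValuationSubring) = 1 := u.inv_mul
      exact congrArg Subtype.val h3
    have a2 := (hmem _ (inv_ne_zero hu0)).mpr (hinv' ▸ ((u⁻¹ : v.toValuationSubringˣ) :
      v.toValuationSubring).2)
    rw [hinv _ hu0] at a2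
    omega
  refine ⟨φ π, ?_, ?_⟩
  · have a1 := (hmem _ hπ0).mpr π.2
    rcases a1.lt_or_eq with h | h
    · exact h
    · exfalso
      have : (0 : ℤ) ≤ φ (π : F)⁻¹ := by rw [hinv _ hπ0]; omega
      have hm := (hmem _ (inv_ne_zero hπ0)).mp this
      have := ord_nonneg_of_mem v hm
      rw [v.ord_inv, v.ord_coe_irreducible hπ] at this
      omega
  · intro f hf
    obtain ⟨u, hu⟩ := v.exists_unit_mul_zpow hf hπ
    have hu0 : ((u : v.toValuationSubring) : F) ≠ 0 := by
      simp [ne_eq, ZeroMemClass.coe_eq_zero]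
    conv_lhs => rw [hu]
    rw [hmul _ _ hu0 (zpow_ne_zero _ hπ0), hunit, hzpow _ hπ0]
    ring

end Fermat.Agent.S24.FF
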