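import Mathlib
import Fermat.Prelude.Def_AlgebraicCurve_DivisorPushPull
import Fermat.Agent.S24.FFBasic

/-!
# S24, part (A): function fields in one variable; residue constants; `deg v = 1`
Owner: helper264.
-/

set_option autoImplicit false

noncomputable section

namespace Fermat.Agent.S24.FF

open AlgebraicCurve IsDedekindDomain WithZero IntermediateField Polynomial

/-- `F/K` is a function field in one variable: `F` is finite over `K(x)` for every
transcendental `x`. -/
class IsFF1 (K F : Type*) [Field K] [Field F] [Algebra K F] : Prop where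
  finite : ∀ x : F, Transcendental K x → FiniteDimensional K⟮x⟯ F

section
variable {K F : Type*} [Field K] [Field F] [Algebra K F]

open scoped IntermediateField.algebraAdjoinAdjoin in
theorem IsFF1.of_exists (x : F) [FiniteDimensional K⟮x⟯ F] : IsFF1 K F := by
  constructor
  intro y hy
  have halg : Algebra.IsAlgebraic (Algebra.adjoin K {x}) F :=
    Algebra.IsAlgebraic.trans (Algebra.adjoin K {x}) K⟮x⟯ F
  have htr : Algebra.trdeg K F ≤ 1 := by
    have := Algebra.IsAlgebraic.trdeg_le_cardinalMk K ({x} : Set F)
    simpa using this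
  have hind : AlgebraicIndependent K (fun _ : PUnit => y) :=
    algebraicIndependent_unique_type_iff.mpr hy
  have hb : IsTranscendenceBasis K (fun _ : PUnit => y) :=
    hind.isTranscendenceBasis_of_trdeg_le_of_finite (by simpa using htr)
  have h1 := hb.isAlgebraic_field
  have hr : Set.range (fun _ : PUnit => y) = {y} := by
    ext z; simp [eq_comm]
  rw [hr] at h1
  have e1 : Algebra.EssFiniteType K K⟮x⟯ := by
    rw [IntermediateField.essFiniteType_iff]
    have := IntermediateField.fg_adjoin_finset (F := K) ({x} : Finset F)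
    simpa using this
  have e2 : Algebra.EssFiniteType K F := Algebra.EssFiniteType.comp K K⟮x⟯ F
  have e3 : Algebra.EssFiniteType K⟮y⟯ F := Algebra.EssFiniteType.of_comp K K⟮y⟯ F
  exact Algebra.finite_of_essFiniteType_of_isAlgebraic

theorem transcendental_of_forall_ne [IsAlgClosed K] {x : F}
    (h : ∀ c : K, x ≠ algebraMap K F c) : Transcendental K x := by
  intro halg
  have hint : IsIntegral K x := halg.isIntegral
  have hdeg := IsAlgClosed.degree_eq_one_of_irreducible K (minpoly.irreducible hint)
  obtain ⟨c, hc⟩ := minpoly.mem_range_of_degree_eq_one K x hdeg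
  exact h c hc.symm

variable (v : Place K F)

theorem ord_aeval_eq_zero [IsAlgClosed K] {x : F}
    (h : ∀ c : K, x - algebraMap K F c ≠ 0 ∧ v.ord (x - algebraMap K F c) = 0)
    (P : K[X]) (hP : P ≠ 0) : aeval x P ≠ 0 ∧ v.ord (aeval x P) = 0 := by
  have hs := (IsAlgClosed.splits P).eq_prod_roots
  rw [hs, map_mul, aeval_C, map_multiset_prod, Multiset.map_map]
  have hlc : algebraMap K F P.leadingCoeff ≠ 0 := by
    simpa using hP
  have key : (Multiset.map (⇑(aeval x) ∘ fun a => X - C a) P.roots).prod ≠ 0 ∧
      v.ord (Multiset.map (⇑(aeval x) ∘ fun a => X - C a) P.roots).prod = 0 := by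
    refine Multiset.prod_induction (fun y : F => y ≠ 0 ∧ v.ord y = 0) _ ?_ ?_ ?_
    · rintro a b ⟨ha, ha'⟩ ⟨hb, hb'⟩
      exact ⟨mul_ne_zero ha hb, by rw [v.ord_mul ha hb, ha', hb', add_zero]⟩
    · exact ⟨one_ne_zero, v.ord_one⟩
    · intro y hy
      obtain ⟨c, -, rfl⟩ := Multiset.mem_map.mp hy
      simpa using h c
  exact ⟨mul_ne_zero hlc key.1, by rw [v.ord_mul hlc key.1, ord_algebraMap, key.2, add_zero]⟩

/-- **Residue constants.** Over an algebraically closed constant field every element of `O_v`
is congruent to a constant. -/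
theorem exists_const_of_ord_nonneg [IsAlgClosed K] [IsFF1 K F] {x : F} (hx : 0 ≤ v.ord x) :
    ∃ c : K, x = algebraMap K F c ∨ 0 < v.ord (x - algebraMap K F c) := by
  by_contra hcon
  push Not at hcon
  have htr : Transcendental K x := transcendental_of_forall_ne fun c => (hcon c).1
  haveI : FiniteDimensional K⟮x⟯ F := IsFF1.finite x htr
  have h : ∀ c : K, x - algebraMap K F c ≠ 0 ∧ v.ord (x - algebraMap K F c) = 0 := by
    intro c
    have hne : x - algebraMap K F c ≠ 0 := sub_ne_zero.mpr (hcon c).1
    refine ⟨hne, le_antisymm (hcon c).2 ?_⟩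
    apply ord_nonneg_of_mem
    exact sub_mem (mem_of_ord_nonneg v hx) (v.algebraMap_mem' c)
  apply (v.restrict K⟮x⟯).ne_top'
  refine SetLike.ext fun y => ⟨fun _ => ValuationSubring.mem_top y, fun _ => ?_⟩
  rw [Place.mem_restrict_iff]
  obtain ⟨r, s, hrs⟩ := (IntermediateField.mem_adjoin_simple_iff K (y : F)).mp y.2
  show (y : F) ∈ v.toValuationSubring
  rw [hrs]
  rcases eq_or_ne r 0 with rfl | hr
  · simp [zero_mem]
  rcases eq_or_ne s 0 with rfl | hs
  · simp [zero_mem]
  obtain ⟨hr0, hr1⟩ := ord_aeval_eq_zero v h r hr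
  obtain ⟨hs0, hs1⟩ := ord_aeval_eq_zero v h s hs
  apply mem_of_ord_nonneg
  rw [div_eq_mul_inv, v.ord_mul hr0 (inv_ne_zero hs0), v.ord_inv, hr1, hs1]
  simp

theorem algebraMap_residueField_surjective [IsAlgClosed K] [IsFF1 K F] :
    Function.Surjective (algebraMap K v.ResidueField) := by
  intro y
  obtain ⟨x, rfl⟩ := IsLocalRing.residue_surjective y
  obtain ⟨c, hc⟩ := exists_const_of_ord_nonneg v (ord_nonneg_of_mem v x.2)
  refine ⟨c, ?_⟩
  show IsLocalRing.residue _ (algebraMap K v.toValuationSubring c) = IsLocalRing.residue _ x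
  rw [eq_comm, ← sub_eq_zero, ← map_sub, IsLocalRing.residue_eq_zero_iff,
    IsLocalRing.mem_maximalIdeal, mem_nonunits_iff]
  intro hu
  have h0 := v.ord_coe_unit hu.unit
  rw [IsUnit.unit_spec] at h0
  have h1 : ((x - algebraMap K v.toValuationSubring c : v.toValuationSubring) : F)
      = (x : F) - algebraMap K F c := rfl
  rw [h1] at h0
  rcases hc with hc | hc
  · have h2 : (x - algebraMap K v.toValuationSubring c : v.toValuationSubring) = 0 :=
      Subtype.ext (by rw [h1, hc, sub_self]; rfl)
    rw [h2] at hu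
    exact not_isUnit_zero hu
  · omega

theorem deg_eq_one [IsAlgClosed K] [IsFF1 K F] : v.deg = 1 := by
  have hbij : Function.Bijective (algebraMap K v.ResidueField) :=
    ⟨(algebraMap K v.ResidueField).injective, algebraMap_residueField_surjective v⟩
  show Module.finrank K v.ResidueField = 1
  rw [← Module.finrank_self K]
  exact ((AlgEquiv.ofBijective (Algebra.ofId K v.ResidueField) hbij).toLinearEquiv.finrank_eq).symm

/-- uniqueness of the residue constant -/
theorem const_unique {x : F} {c c' : K} (h : 0 < v.ord (x - algebraMap K F c))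
    (h' : 0 < v.ord (x - algebraMap K F c')) : c = c' := by
  by_contra hne
  have h1 : (x - algebraMap K F c') + -(x - algebraMap K F c) = algebraMap K F (c - c') := by
    rw [map_sub]; ring
  have h2 : algebraMap K F (c - c') ≠ 0 := by
    simpa [sub_eq_zero] using hne
  have h3 := min_ord_le_ord_add v (f := x - algebraMap K F c') (g := -(x - algebraMap K F c))
    (by rw [h1]; exact h2)
  rw [h1, ord_algebraMap, ord_neg] at h3
  rcases min_le_iff.mp h3 with h4 | h4 <;> omega

end

end Fermat.Agent.S24.FF
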