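import Mathlib
import Fermat.Prelude.Def_AlgebraicCurve_DivisorClassGroup
import Fermat.Agent.S24.FFBasic

/-!
# S24, part (A): dictionary between places and primes of a Dedekind model
Owner: helper264.
-/

set_option autoImplicit false

noncomputable section

namespace Fermat.Agent.S24.FF

open AlgebraicCurve IsDedekindDomain WithZero

section Abstract

variable {K F : Type*} [Field K] [Field F] [Algebra K F]
variable {B : Type*} [CommRing B] [IsDedekindDomain B] [Algebra B F] [IsFractionRing B F]
  [Algebra K B] [IsScalarTower K B F]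

theorem ord_ofHeightOneSpectrum (w : HeightOneSpectrum B) (f : F) :
    (Place.ofHeightOneSpectrum (K := K) w).ord f = -(log (w.valuation F f)) := by
  rcases eq_or_ne f 0 with rfl | hf
  · simp
  set v := Place.ofHeightOneSpectrum (K := K) (F := F) w with hv
  obtain ⟨m, hm, h⟩ := exists_eq_mul_ord v (fun f => -(log (w.valuation F f)))
    (fun f g hf hg => by
      simp only [map_mul]
      rw [log_mul ((Valuation.ne_zero_iff _).mpr hf) ((Valuation.ne_zero_iff _).mpr hg)]
      ring)
    (fun f hf => by
      rw [hv, Place.ofHeightOneSpectrum_toValuationSubring, Valuation.mem_valuationSubring_iff]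
      have h0 : w.valuation F f ≠ 0 := (Valuation.ne_zero_iff _).mpr hf
      rw [← exp_log h0, ← exp_zero, exp_le_exp, log_exp]
      omega)
  obtain ⟨π, hπ⟩ := w.valuation_exists_uniformizer F
  have hπ0 : π ≠ 0 := by
    rintro rfl
    rw [map_zero] at hπ
    exact exp_ne_zero hπ.symm
  have h1 := h π hπ0
  simp only [hπ, log_exp, neg_neg] at h1
  have hm1 : m = 1 := by
    have : m ∣ 1 := ⟨_, h1⟩
    exact Int.eq_one_of_dvd_one hm.le this
  rw [h f hf, hm1, one_mul]

variable (v : Place K F) (hB : ∀ b : B, algebraMap B F b ∈ v.toValuationSubring)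

/-- the ring hom `B → O_v` -/
def toValuationSubringHom : B →+* v.toValuationSubring :=
  (algebraMap B F).codRestrict v.toValuationSubring.toSubring hB

/-- The prime of `B` cut out by a place whose valuation ring contains `B`. -/
def primeOfPlace : HeightOneSpectrum B where
  asIdeal := (IsLocalRing.maximalIdeal v.toValuationSubring).comap (toValuationSubringHom v hB)
  isPrime := Ideal.comap_isPrime _ _
  ne_bot := by
    intro hbot
    apply v.ne_top'
    -- every nonzero element of `B` is a unit of `O_v`, so `F ⊆ O_v`
    have hunit : ∀ b : B, b ≠ 0 → (algebraMap B F b)⁻¹ ∈ v.toValuationSubring := by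
      intro b hb
      have hnot : b ∉ (IsLocalRing.maximalIdeal v.toValuationSubring).comap
          (toValuationSubringHom v hB) := by
        rw [hbot]; simpa using hb
      rw [Ideal.mem_comap, IsLocalRing.mem_maximalIdeal, mem_nonunits_iff, not_not] at hnot
      obtain ⟨c, hc⟩ := isUnit_iff_exists_inv.mp hnot
      have hc' : algebraMap B F b * (c : F) = 1 := congrArg Subtype.val hc
      rw [← eq_inv_of_mul_eq_one_right hc']
      exact c.2
    refine SetLike.ext fun x => ⟨fun _ => ValuationSubring.mem_top x, fun _ => ?_⟩
    obtain ⟨a, s, hs, rfl⟩ := IsFractionRing.div_surjective (A := B) x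
    rw [div_eq_mul_inv]
    exact mul_mem (hB a) (hunit s (nonZeroDivisors.ne_zero hs))

theorem mem_primeOfPlace_iff (b : B) :
    b ∈ (primeOfPlace v hB).asIdeal ↔ b = 0 ∨ 0 < v.ord (algebraMap B F b) := by
  show toValuationSubringHom v hB b ∈ IsLocalRing.maximalIdeal v.toValuationSubring ↔ _
  rw [IsLocalRing.mem_maximalIdeal, mem_nonunits_iff]
  rcases eq_or_ne b 0 with rfl | hb
  · simp
  have hb' : algebraMap B F b ≠ 0 := by
    simpa using hb
  have hnn := ord_nonneg_of_mem v (hB b)
  constructor
  · intro h
    right
    rcases hnn.lt_or_eq with h1 | h1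
    · exact h1
    · exfalso
      apply h
      have hinv : (algebraMap B F b)⁻¹ ∈ v.toValuationSubring :=
        mem_of_ord_nonneg v (by rw [v.ord_inv]; omega)
      exact ⟨⟨toValuationSubringHom v hB b, ⟨_, hinv⟩, Subtype.ext (mul_inv_cancel₀ hb'),
        Subtype.ext (inv_mul_cancel₀ hb')⟩, rfl⟩
  · rintro (h | h) hu
    · exact hb h
    · have := v.ord_coe_unit hu.unit
      rw [IsUnit.unit_spec] at this
      have h2 : ((toValuationSubringHom v hB b : v.toValuationSubring) : F) = algebraMap B F b := rfl
      rw [h2] at this
      omega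

theorem ofHeightOneSpectrum_primeOfPlace :
    Place.ofHeightOneSpectrum (K := K) (primeOfPlace v hB) = v := by
  apply Place.ext
  rw [Place.ofHeightOneSpectrum_toValuationSubring,
    ← HeightOneSpectrum.valuationSubringAtPrime_eq_valuationSubring]
  refine ValuationSubring.eq_of_le_of_ne_top _ ?_ v.ne_top'
  rw [HeightOneSpectrum.valuationSubringAtPrime_eq_valuationSubring]
  intro x hx
  rw [Valuation.mem_valuationSubring_iff] at hx
  obtain ⟨n, d, hnd⟩ := (primeOfPlace v hB).exists_primeCompl_mul_eq_of_integer x hx
  have hd : (d : B) ∉ (primeOfPlace v hB).asIdeal := d.2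
  rw [mem_primeOfPlace_iff, not_or, not_lt] at hd
  have hd0 : algebraMap B F d ≠ 0 := by simpa using hd.1
  have hdinv : (algebraMap B F d)⁻¹ ∈ v.toValuationSubring :=
    mem_of_ord_nonneg v (by rw [v.ord_inv]; omega)
  have : x = algebraMap B F n * (algebraMap B F d)⁻¹ := by
    rw [← hnd]; field_simp
  rw [this]
  exact mul_mem (hB n) hdinv

theorem algebraMap_mem_ofHeightOneSpectrum (w : HeightOneSpectrum B) (b : B) :
    algebraMap B F b ∈ (Place.ofHeightOneSpectrum (K := K) (F := F) w).toValuationSubring := by
  rw [Place.ofHeightOneSpectrum_toValuationSubring, Valuation.mem_valuationSubring_iff]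
  exact w.valuation_le_one b

theorem ofHeightOneSpectrum_injective :
    Function.Injective (Place.ofHeightOneSpectrum (K := K) (F := F) (R := B)) := by
  intro w w' h
  apply HeightOneSpectrum.eq_of_valuation_isEquiv_valuation (K := F)
  rw [Valuation.isEquiv_iff_valuationSubring]
  exact congrArg Place.toValuationSubring h

variable (K F B) in
/-- **Dictionary**: places of `F/K` whose valuation ring contains the Dedekind model `B`
correspond to the nonzero primes of `B`. -/
def placeEquiv :
    {v : Place K F // ∀ b : B, algebraMap B F b ∈ v.toValuationSubring} ≃ HeightOneSpectrum B where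
  toFun v := primeOfPlace v.1 v.2
  invFun w := ⟨Place.ofHeightOneSpectrum w, algebraMap_mem_ofHeightOneSpectrum w⟩
  left_inv v := Subtype.ext (ofHeightOneSpectrum_primeOfPlace v.1 v.2)
  right_inv w := ofHeightOneSpectrum_injective (K := K) (F := F)
    (ofHeightOneSpectrum_primeOfPlace _ _)

end Abstract

end Fermat.Agent.S24.FF
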