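import Mathlib
import Fermat.Agent.S24.FFOne
import Fermat.Agent.S24.FFDict

/-!
# S24, part (A): the fundamental identity `∑_{v(t)>0} v(t) = [F : K(t)]`, degree of principal
divisors.  Owner: helper264.
-/

set_option autoImplicit false
set_option linter.style.haveILetI false
set_option linter.deprecated false

noncomputable section

namespace Fermat.Agent.S24.FF

open AlgebraicCurve IsDedekindDomain WithZero IntermediateField Polynomial
open scoped IntermediateField.algebraAdjoinAdjoin

section
variable {K F : Type*} [Field K] [Field F] [Algebra K F]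

theorem isPrincipalIdealRing_adjoin (t : F) (ht : Transcendental K t) :
    IsPrincipalIdealRing (Algebra.adjoin K {t}) :=
  IsPrincipalIdealRing.of_surjective
    (Polynomial.algEquivOfTranscendental K t ht).toRingEquiv.toRingHom
    (Polynomial.algEquivOfTranscendental K t ht).surjective

theorem adjoin_le_of_ord_nonneg (v : Place K F) {t : F} (ht : 0 ≤ v.ord t) :
    ∀ a ∈ Algebra.adjoin K {t}, a ∈ v.toValuationSubring := by
  intro a ha
  induction ha using Algebra.adjoin_induction with
  | mem x hx =>
    rw [Set.mem_singleton_iff] at hx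
    subst hx
    exact mem_of_ord_nonneg v ht
  | algebraMap r => exact v.algebraMap_mem' r
  | add x y _ _ hx hy => exact add_mem hx hy
  | mul x y _ _ hx hy => exact mul_mem hx hy

theorem mem_of_isIntegral (v : Place K F) (A : Subalgebra K F)
    (hA : ∀ a ∈ A, a ∈ v.toValuationSubring) {b : F} (hb : IsIntegral A b) :
    b ∈ v.toValuationSubring := by
  letI : Algebra A v.toValuationSubring :=
    ((algebraMap A F).codRestrict v.toValuationSubring.toSubring (fun a => hA a a.2)).toAlgebra
  letI : IsScalarTower A v.toValuationSubring F :=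
    IsScalarTower.of_algebraMap_eq fun f => rfl
  have hx : IsIntegral v.toValuationSubring b := hb.tower_top
  obtain ⟨y, hy⟩ := IsIntegrallyClosed.isIntegral_iff.mp hx
  exact hy ▸ y.2

end

section Abstract

variable {K F A B E : Type*} [Field K] [Field F] [Algebra K F] [IsAlgClosed K] [IsFF1 K F]
  [CommRing A] [IsDedekindDomain A] [CommRing B] [IsDedekindDomain B] [Algebra A B]
  [Module.IsTorsionFree A B]
  [Field E] [Algebra A E] [IsFractionRing A E] [Algebra E F] [Algebra A F] [IsScalarTower A E F]
  [Algebra B F] [IsFractionRing B F] [IsScalarTower A B F] [Module.Finite A B]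
  [Algebra K A] [Algebra K B] [IsScalarTower K A B] [IsScalarTower K B F]

omit [IsAlgClosed K] [IsFF1 K F] [Module.Finite A B] [Algebra K A] [IsScalarTower K A B]
  [Field E] [Algebra A E] [IsFractionRing A E] [Algebra E F] [IsScalarTower A E F] in
theorem ord_eq_ramificationIdx (t' : A) (ht'0 : t' ≠ 0) (vp : HeightOneSpectrum A)
    (hvp : vp.asIdeal = Ideal.span {t'}) (w : HeightOneSpectrum B)
    [w.asIdeal.LiesOver vp.asIdeal] :
    (Place.ofHeightOneSpectrum (K := K) (F := F) w).ord (algebraMap A F t')
      = (vp.asIdeal.ramificationIdx' w.asIdeal : ℤ) := by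
  have h3 := HeightOneSpectrum.intValuation_liesOver vp w t'
  rw [ord_ofHeightOneSpectrum, IsScalarTower.algebraMap_apply A B F,
    HeightOneSpectrum.valuation_of_algebraMap, ← h3, vp.intValuation_singleton ht'0 hvp,
    ← exp_nsmul, log_exp]
  simp

theorem inertiaDeg_eq_one (K F : Type*) {A B : Type*} [Field K] [Field F] [Algebra K F]
    [IsAlgClosed K] [IsFF1 K F] [CommRing A] [CommRing B] [IsDedekindDomain B] [Algebra A B]
    [Algebra B F] [IsFractionRing B F] [Algebra K A] [Algebra K B] [IsScalarTower K A B]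
    [IsScalarTower K B F] (p : Ideal A) [p.IsMaximal] (w : HeightOneSpectrum B)
    [w.asIdeal.LiesOver p] : p.inertiaDeg' w.asIdeal = 1 := by
  rw [Ideal.inertiaDeg'_algebraMap]
  letI := Ideal.Quotient.field p
  have hnt : Nontrivial (B ⧸ w.asIdeal) := Ideal.Quotient.nontrivial_iff.mpr w.isPrime.ne_top
  rw [finrank_eq_one_iff_of_nonzero' (1 : B ⧸ w.asIdeal) one_ne_zero]
  intro y
  obtain ⟨b, rfl⟩ := Ideal.Quotient.mk_surjective y
  obtain ⟨c, hc⟩ := exists_const_of_ord_nonneg (Place.ofHeightOneSpectrum (K := K) w)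
    (x := algebraMap B F b)
    (ord_nonneg_of_mem _ (algebraMap_mem_ofHeightOneSpectrum w b))
  refine ⟨Ideal.Quotient.mk p (algebraMap K A c), ?_⟩
  rw [Algebra.smul_def, mul_one]
  have h5 : algebraMap (A ⧸ p) (B ⧸ w.asIdeal) (Ideal.Quotient.mk p (algebraMap K A c))
      = Ideal.Quotient.mk w.asIdeal (algebraMap A B (algebraMap K A c)) := rfl
  rw [h5, ← IsScalarTower.algebraMap_apply K A B, eq_comm, Ideal.Quotient.eq]
  have h6 : algebraMap B F (b - algebraMap K B c) = algebraMap B F b - algebraMap K F c := by
    rw [map_sub, ← IsScalarTower.algebraMap_apply K B F]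
  rcases hc with hc | hc
  · have : b - algebraMap K B c = 0 := by
      apply (IsFractionRing.injective B F)
      rw [h6, hc, sub_self, map_zero]
    rw [this]; exact zero_mem _
  · rw [ord_ofHeightOneSpectrum, ← h6] at hc
    rw [← HeightOneSpectrum.valuation_lt_one_iff_mem (K := F)]
    have hne : w.valuation F (algebraMap B F (b - algebraMap K B c)) ≠ 0 := by
      intro h0
      rw [h0] at hc
      simp at hc
    rw [← exp_log hne, ← exp_zero, exp_lt_exp]
    omega

variable (E B) in
/-- **Fundamental identity**, abstract Dedekind form. -/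
theorem exists_finset_ord_pos_aux (t' : A) (ht'0 : t' ≠ 0) (hmax : (Ideal.span {t'}).IsMaximal) :
    ∃ s : Finset (Place K F),
      (∀ v, v ∈ s ↔ (∀ b : B, algebraMap B F b ∈ v.toValuationSubring) ∧
        0 < v.ord (algebraMap A F t')) ∧
      ∑ v ∈ s, v.ord (algebraMap A F t') = (Module.finrank E F : ℤ) := by
  classical
  set p : Ideal A := Ideal.span {t'} with hp
  have hp0 : p ≠ ⊥ := by
    rw [hp, Ne, Ideal.span_singleton_eq_bot]; exact ht'0
  have hsum := Ideal.sum_ramification_inertia B E F hp0
  let vp : HeightOneSpectrum A := ⟨p, hmax.isPrime, hp0⟩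
  -- the finite set of height one primes over `p`
  have hmem := fun P => IsDedekindDomain.mem_primesOverFinset_iff hp0 B (P := P)
  let W : ∀ P ∈ IsDedekindDomain.primesOverFinset p B, HeightOneSpectrum B := fun P hP =>
    ⟨P, ((hmem P).mp hP).1,
      haveI := ((hmem P).mp hP).2
      Ideal.ne_bot_of_liesOver_of_ne_bot hp0 P⟩
  let Φ : ∀ P ∈ IsDedekindDomain.primesOverFinset p B, Place K F := fun P hP =>
    Place.ofHeightOneSpectrum (K := K) (W P hP)
  have hord : ∀ P (hP : P ∈ IsDedekindDomain.primesOverFinset p B),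
      (Φ P hP).ord (algebraMap A F t') = (p.ramificationIdx' P : ℤ) := by
    intro P hP
    haveI : (W P hP).asIdeal.LiesOver vp.asIdeal := ((hmem P).mp hP).2
    exact ord_eq_ramificationIdx t' ht'0 vp rfl (W P hP)
  have hinert : ∀ P (hP : P ∈ IsDedekindDomain.primesOverFinset p B), p.inertiaDeg' P = 1 := by
    intro P hP
    haveI : (W P hP).asIdeal.LiesOver p := ((hmem P).mp hP).2
    exact inertiaDeg_eq_one K F p (W P hP)
  refine ⟨(IsDedekindDomain.primesOverFinset p B).attach.image (fun P => Φ P.1 P.2), ?_, ?_⟩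
  · intro v
    rw [Finset.mem_image]
    constructor
    · rintro ⟨⟨P, hP⟩, -, rfl⟩
      refine ⟨algebraMap_mem_ofHeightOneSpectrum _, ?_⟩
      rw [hord P hP]
      haveI := ((hmem P).mp hP).1
      haveI := ((hmem P).mp hP).2
      have := Ideal.IsDedekindDomain.ramificationIdx'_ne_zero_of_liesOver P hp0
      omega
    · rintro ⟨hB, hpos⟩
      have hP : (primeOfPlace v hB).asIdeal ∈ IsDedekindDomain.primesOverFinset p B := by
        rw [hmem]
        refine ⟨(primeOfPlace v hB).isPrime, ⟨?_⟩⟩
        apply hmax.eq_of_le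
        · exact (Ideal.comap_isPrime (algebraMap A B) (primeOfPlace v hB).asIdeal).ne_top
        · rw [hp, Ideal.span_singleton_le_iff_mem, Ideal.mem_comap, mem_primeOfPlace_iff]
          right
          rwa [← IsScalarTower.algebraMap_apply A B F]
      refine ⟨⟨_, hP⟩, Finset.mem_attach _ _, ?_⟩
      exact ofHeightOneSpectrum_primeOfPlace v hB
  · rw [Finset.sum_image]
    · rw [← hsum, ← Finset.sum_attach (IsDedekindDomain.primesOverFinset p B)]
      push_cast
      apply Finset.sum_congr rfl
      intro P _
      rw [hord P.1 P.2, hinert P.1 P.2]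
      simp
    · intro P _ Q _ h
      have := ofHeightOneSpectrum_injective (K := K) (F := F) h
      exact Subtype.ext (congrArg HeightOneSpectrum.asIdeal this)

end Abstract

section Concrete

variable {K F : Type*} [Field K] [Field F] [Algebra K F] [CharZero K] [IsAlgClosed K] [IsFF1 K F]

/-- **Fundamental identity** for the zeros of a transcendental element. -/
theorem exists_finset_ord_pos (t : F) (ht : Transcendental K t) :
    ∃ s : Finset (Place K F), (∀ v, v ∈ s ↔ 0 < v.ord t) ∧
      ∑ v ∈ s, v.ord t = (Module.finrank K⟮t⟯ F : ℤ) := by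
  haveI : FiniteDimensional K⟮t⟯ F := IsFF1.finite t ht
  haveI := isPrincipalIdealRing_adjoin t ht
  haveI : CharZero K⟮t⟯ := charZero_of_injective_algebraMap (algebraMap K K⟮t⟯).injective
  haveI : IsDedekindDomain (integralClosure (Algebra.adjoin K {t}) F) :=
    integralClosure.isDedekindDomain (Algebra.adjoin K {t}) K⟮t⟯ F
  haveI : IsFractionRing (integralClosure (Algebra.adjoin K {t}) F) F :=
    integralClosure.isFractionRing_of_finite_extension K⟮t⟯ F
  haveI : Module.Finite (Algebra.adjoin K {t}) (integralClosure (Algebra.adjoin K {t}) F) :=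
    IsIntegralClosure.finite (Algebra.adjoin K {t}) K⟮t⟯ F _
  let t' : Algebra.adjoin K {t} := ⟨t, Algebra.self_mem_adjoin_singleton K t⟩
  have ht0 : t ≠ 0 := by
    rintro rfl
    exact ht isAlgebraic_zero
  have ht'0 : t' ≠ 0 := fun h => ht0 (congrArg Subtype.val h)
  have hprime : Prime t' := by
    have h1 : Polynomial.algEquivOfTranscendental K t ht X = t' := by simp [t']
    rw [← h1]
    exact (MulEquiv.prime_iff (Polynomial.algEquivOfTranscendental K t ht).toMulEquiv).mpr
      Polynomial.prime_X
  have hp0 : Ideal.span {t'} ≠ ⊥ := by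
    rw [Ne, Ideal.span_singleton_eq_bot]; exact ht'0
  have hpmax : (Ideal.span {t'}).IsMaximal :=
    ((Ideal.span_singleton_prime ht'0).mpr hprime).isMaximal hp0
  obtain ⟨s, hs, hsum⟩ := exists_finset_ord_pos_aux (K := K) (F := F)
    (integralClosure (Algebra.adjoin K {t}) F) K⟮t⟯ t' ht'0 hpmax
  refine ⟨s, fun v => ?_, hsum⟩
  rw [hs]
  constructor
  · exact fun h => h.2
  · intro h
    refine ⟨fun b => ?_, h⟩
    exact mem_of_isIntegral v _ (adjoin_le_of_ord_nonneg v (le_of_lt h)) b.2

end Concrete

end Fermat.Agent.S24.FF
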