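import Mathlib
import Fermat.Agent.S24.FFSum

/-!
# S24, part (A): principal divisors have degree zero; fibres of `x : F → P¹`
Owner: helper264.
-/

set_option autoImplicit false

noncomputable section

namespace Fermat.Agent.S24.FF

open AlgebraicCurve IsDedekindDomain WithZero IntermediateField Polynomial

section
variable {K F : Type*} [Field K] [Field F] [Algebra K F]

theorem adjoin_simple_inv (f : F) : K⟮f⁻¹⟯ = K⟮f⟯ := by
  apply le_antisymm
  · rw [adjoin_simple_le_iff]
    exact inv_mem (mem_adjoin_simple_self K f)
  · rw [adjoin_simple_le_iff]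
    have := inv_mem (mem_adjoin_simple_self K f⁻¹)
    rwa [inv_inv] at this

theorem adjoin_simple_sub_const (x : F) (c : K) : K⟮x - algebraMap K F c⟯ = K⟮x⟯ := by
  apply le_antisymm
  · rw [adjoin_simple_le_iff]
    exact sub_mem (mem_adjoin_simple_self K x) (IntermediateField.algebraMap_mem _ c)
  · rw [adjoin_simple_le_iff]
    have := add_mem (mem_adjoin_simple_self K (x - algebraMap K F c))
      (IntermediateField.algebraMap_mem K⟮x - algebraMap K F c⟯ c)
    rwa [sub_add_cancel] at this

theorem transcendental_inv {f : F} (hf : Transcendental K f) : Transcendental K f⁻¹ := by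
  intro h
  exact hf (by simpa using h.inv)

theorem transcendental_sub_const {x : F} (hx : Transcendental K x) (c : K) :
    Transcendental K (x - algebraMap K F c) := by
  intro h
  apply hx
  have := h.add (isAlgebraic_algebraMap (A := F) c)
  rwa [sub_add_cancel] at this

theorem exists_const_or_transcendental [IsAlgClosed K] (f : F) :
    (∃ c : K, f = algebraMap K F c) ∨ Transcendental K f := by
  by_cases h : ∃ c : K, f = algebraMap K F c
  · exact Or.inl h
  · push Not at h
    exact Or.inr (transcendental_of_forall_ne h)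

end

section
variable {K F : Type*} [Field K] [Field F] [Algebra K F] [CharZero K] [IsAlgClosed K] [IsFF1 K F]

/-- poles of a transcendental element -/
theorem exists_finset_ord_neg (t : F) (ht : Transcendental K t) :
    ∃ s : Finset (Place K F), (∀ v, v ∈ s ↔ v.ord t < 0) ∧
      ∑ v ∈ s, v.ord t = -(Module.finrank K⟮t⟯ F : ℤ) := by
  obtain ⟨s, hs, hsum⟩ := exists_finset_ord_pos t⁻¹ (transcendental_inv ht)
  refine ⟨s, fun v => ?_, ?_⟩
  · rw [hs, v.ord_inv]; omega
  · rw [adjoin_simple_inv] at hsum
    rw [← hsum, ← Finset.sum_neg_distrib]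
    exact Finset.sum_congr rfl fun v _ => by rw [v.ord_inv, neg_neg]

theorem finite_ord_ne_zero (f : F) : {v : Place K F | v.ord f ≠ 0}.Finite := by
  rcases exists_const_or_transcendental (K := K) f with ⟨c, rfl⟩ | hf
  · simp [ord_algebraMap]
  · obtain ⟨s, hs, -⟩ := exists_finset_ord_pos f hf
    obtain ⟨s', hs', -⟩ := exists_finset_ord_neg f hf
    classical
    apply (s ∪ s').finite_toSet.subset
    intro v hv
    change v.ord f ≠ 0 at hv
    rw [Finset.mem_coe, Finset.mem_union, hs, hs']
    omega

/-- **Principal divisors have degree zero.** -/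
theorem sum_ord_eq_zero (f : F) (s : Finset (Place K F)) (hs : ∀ v : Place K F, v.ord f ≠ 0 → v ∈ s) :
    ∑ v ∈ s, v.ord f = 0 := by
  classical
  rcases exists_const_or_transcendental (K := K) f with ⟨c, rfl⟩ | hf
  · simp [ord_algebraMap]
  · obtain ⟨s₁, hs₁, hsum₁⟩ := exists_finset_ord_pos f hf
    obtain ⟨s₂, hs₂, hsum₂⟩ := exists_finset_ord_neg f hf
    have hdisj : Disjoint s₁ s₂ := by
      rw [Finset.disjoint_left]
      intro v h1 h2
      rw [hs₁] at h1
      rw [hs₂] at h2
      omega
    have hsub : s₁ ∪ s₂ ⊆ s := by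
      intro v hv
      rw [Finset.mem_union, hs₁, hs₂] at hv
      exact hs v (by omega)
    rw [← Finset.sum_subset hsub, Finset.sum_union hdisj, hsum₁, hsum₂]
    · ring
    · intro v _ hv
      rw [Finset.mem_union, hs₁, hs₂] at hv
      omega

theorem finsum_ord_eq_zero (f : F) : ∑ᶠ v : Place K F, v.ord f = 0 := by
  rw [finsum_eq_sum_of_support_subset (s := (finite_ord_ne_zero (K := K) f).toFinset)]
  · exact sum_ord_eq_zero f _ (fun v hv => by simpa using hv)
  · intro v hv
    simpa using hv

end

end Fermat.Agent.S24.FF
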