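/-
S24-F (task 80), owner helper276.  Formal facts on the function field of `X₀(N)` over `ℚ̄`:
`j` is transcendental, and the field is generated by the finitely many series `j(q^d)`, `d ∣ N`.
-/
import Fermat.Agent.S24.Defs

set_option autoImplicit false

namespace Fermat.Agent.S24.Formal

open AlgebraicCurve ModularCurve IntermediateField Fermat.Agent.S24

theorem Jser_one : Jser 1 = coeffEmb Kbar jq := by
  rw [Jser, qExpand_one_apply]

theorem coeff_Jser_one_pow (i : ℕ) (m : ℤ) :
    ((Jser 1) ^ i).coeff m = algebraMap ℚ Kbar ((jq ^ i).coeff m) := by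
  rw [Jser_one, ← map_pow, coeffEmb_coeff]

theorem coeff_algebraMap_mul_laurent (c : Kbar) (x : LaurentSeries Kbar) (m : ℤ) :
    (algebraMap Kbar (LaurentSeries Kbar) c * x).coeff m = c * x.coeff m := by
  rw [algebraMap_laurentSeries_eq_single, HahnSeries.coeff_single_zero_mul]

theorem coeff_aeval_Jser_one (p : Polynomial Kbar) :
    (Polynomial.aeval (Jser 1) p).coeff (-(p.natDegree : ℤ)) = p.leadingCoeff := by
  rw [Polynomial.aeval_eq_sum_range, HahnSeries.coeff_sum, Finset.sum_range_succ]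
  rw [Finset.sum_eq_zero, zero_add]
  · rw [Algebra.smul_def, coeff_algebraMap_mul_laurent, coeff_Jser_one_pow, coeff_jq_pow_self, map_one,
      mul_one, Polynomial.leadingCoeff]
  · intro i hi
    rw [Finset.mem_range] at hi
    rw [Algebra.smul_def, coeff_algebraMap_mul_laurent, coeff_Jser_one_pow, coeff_jq_pow_of_lt (by omega), map_zero,
      mul_zero]

theorem transcendental_Jser_one : Transcendental Kbar (Jser 1) := by
  rintro ⟨p, hp, h0⟩
  have h := coeff_aeval_Jser_one p
  rw [h0, HahnSeries.coeff_zero] at h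
  exact hp (Polynomial.leadingCoeff_eq_zero.mp h.symm)

theorem transcendental_jF (N : ℕ) [NeZero N] : Transcendental Kbar (jF N) := by
  rintro ⟨p, hp, h0⟩
  refine transcendental_Jser_one ⟨p, hp, ?_⟩
  have h := congrArg (modularFunctionFieldBar N).val h0
  rw [← Polynomial.aeval_algHom_apply, map_zero] at h
  exact h

/-- The set of generators `j(q^d)`, `d ∣ N`, as series. -/
def genSer (N : ℕ) : Set (LaurentSeries Kbar) :=
  {x | ∃ (d : ℕ) (_ : NeZero d), d ∣ N ∧ x = Jser d}

/-- The set of generators `j(q^d)`, `d ∣ N`, in the function field. -/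
def genF (N : ℕ) : Set (FN N) :=
  {f : FN N | ∃ (d : ℕ) (_ : NeZero d) (hd : d ∣ N), f = JF N d hd}

theorem coeffEmb_algebraMap (r : ℚ) :
    coeffEmb Kbar (algebraMap ℚ (LaurentSeries ℚ) r) =
      algebraMap Kbar (LaurentSeries Kbar) (algebraMap ℚ Kbar r) := by
  rw [algebraMap_laurentSeries_eq_single, algebraMap_laurentSeries_eq_single, coeffEmb,
    coeffMap_single]

theorem coeffEmb_mem_adjoin_genSer (N : ℕ) {x : LaurentSeries ℚ}
    (hx : x ∈ modularFunctionFieldFull N) :
    coeffEmb Kbar x ∈ IntermediateField.adjoin Kbar (genSer N) := by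
  rw [modularFunctionFieldFull] at hx
  induction hx using IntermediateField.adjoin_induction with
  | mem y hy =>
    obtain ⟨d, hne, hd, rfl⟩ := hy
    exact IntermediateField.subset_adjoin Kbar _ ⟨d, hne, hd, rfl⟩
  | algebraMap r =>
    rw [coeffEmb_algebraMap]
    exact IntermediateField.algebraMap_mem _ _
  | add y z _ _ hy hz => rw [map_add]; exact add_mem hy hz
  | inv y _ hy => rw [map_inv₀]; exact inv_mem hy
  | mul y z _ _ hy hz => rw [map_mul]; exact mul_mem hy hz

theorem modularFunctionFieldBar_le_adjoin_genSer (N : ℕ) :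
    modularFunctionFieldBar N ≤ IntermediateField.adjoin Kbar (genSer N) := by
  rw [modularFunctionFieldBar, laurentBaseChange, IntermediateField.adjoin_le_iff]
  rintro _ ⟨x, hx, rfl⟩
  exact coeffEmb_mem_adjoin_genSer N hx

theorem val_image_genF (N : ℕ) :
    (modularFunctionFieldBar N).val '' genF N = genSer N := by
  ext x
  constructor
  · rintro ⟨_, ⟨d, hne, hd, rfl⟩, rfl⟩
    exact ⟨d, hne, hd, rfl⟩
  · rintro ⟨d, hne, hd, rfl⟩
    exact ⟨JF N d hd, ⟨d, hne, hd, rfl⟩, rfl⟩

theorem adjoin_genF_eq_top (N : ℕ) : IntermediateField.adjoin Kbar (genF N) = ⊤ := by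
  rw [eq_top_iff]
  intro f _
  have h1 : (f : LaurentSeries Kbar) ∈ IntermediateField.adjoin Kbar (genSer N) :=
    modularFunctionFieldBar_le_adjoin_genSer N f.2
  rw [← val_image_genF, ← IntermediateField.adjoin_map] at h1
  obtain ⟨a, ha, hfa⟩ := h1
  have : a = f := Subtype.ext hfa
  exact this ▸ ha

theorem adjoin_JF_eq_top (N : ℕ) [NeZero N] :
    IntermediateField.adjoin Kbar
      {f : FN N | ∃ (d : ℕ) (_ : NeZero d) (hd : d ∣ N), f = JF N d hd} = ⊤ :=
  adjoin_genF_eq_top N

theorem finite_genF (N : ℕ) [NeZero N] : (genF N).Finite := by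
  classical
  have hsub : genF N ⊆ Set.range (fun d : N.divisors =>
      haveI : NeZero (d : ℕ) := ⟨(Nat.pos_of_mem_divisors d.2).ne'⟩
      JF N d (Nat.dvd_of_mem_divisors d.2)) := by
    rintro _ ⟨d, hne, hd, rfl⟩
    exact ⟨⟨d, Nat.mem_divisors.mpr ⟨hd, NeZero.ne N⟩⟩, rfl⟩
  exact (Set.finite_range _).subset hsub

theorem exists_finset_adjoin_eq_top (N : ℕ) [NeZero N] :
    ∃ s : Finset (FN N), IntermediateField.adjoin Kbar (s : Set (FN N)) = ⊤ :=
  ⟨(finite_genF N).toFinset, by rw [Set.Finite.coe_toFinset]; exact adjoin_genF_eq_top N⟩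

end Fermat.Agent.S24.Formal
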