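import Mathlib
import Fermat.Prelude.Def_AlgebraicCurve_CanonicalDivisor
import Fermat.Agent.S24.FFDeg

/-!
# S24, part (A): Riemann–Hurwitz over `P¹` in counting form, from the local differential lemmas
Owner: helper264.
-/

set_option autoImplicit false

noncomputable section

namespace Fermat.Agent.S24.FF

open AlgebraicCurve IntermediateField KaehlerDifferential

variable {K F : Type*} [Field K] [Field F] [Algebra K F]

/-- The local facts on differentials needed for Riemann–Hurwitz. -/
structure DiffData (K F : Type*) [Field K] [Field F] [Algebra K F] (x : F) : Prop where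
  ordDiff_D : ∀ (v : Place K F) (y : F), v.ord y ≠ 0 →
    v.ordDifferential (KaehlerDifferential.D K F y) = v.ord y - 1
  ordDiff_smul : ∀ (v : Place K F) (f : F) (ω : Ω[F⁄K]), f ≠ 0 → ω ≠ 0 →
    v.ordDifferential (f • ω) = v.ord f + v.ordDifferential ω
  span : ∀ ω : Ω[F⁄K], ∃ f : F, ω = f • KaehlerDifferential.D K F x
  D_ne_zero : KaehlerDifferential.D K F x ≠ 0

theorem degree_eq_finsum [IsAlgClosed K] [IsFF1 K F] (D : Divisor K F) :
    Divisor.degree D = ∑ᶠ v : Place K F, D v := by
  rw [finsum_eq_sum_of_support_subset (s := D.support) _ (by intro v hv; simpa using hv)]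
  simp only [Divisor.degree, Finsupp.liftAddHom_apply, Finsupp.sum, AddMonoidHom.coe_mulRight,
    deg_eq_one, Nat.cast_one, mul_one]

theorem eq_one_of_sum_eq_card {ι : Type*} (s : Finset ι) (a : ι → ℤ) (h1 : ∀ i ∈ s, 1 ≤ a i)
    (hsum : ∑ i ∈ s, a i = s.card) : ∀ i ∈ s, a i = 1 := by
  have h0 : ∑ i ∈ s, (a i - 1) = 0 := by
    rw [Finset.sum_sub_distrib, hsum]; simp
  have := (Finset.sum_eq_zero_iff_of_nonneg (fun i hi => by have := h1 i hi; omega)).mp h0
  intro i hi
  have := this i hi
  omega

variable [CharZero K] [IsAlgClosed K]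

/-- **Riemann–Hurwitz over `P¹`, counting form.** -/
theorem degree_eq_of_diffData (x : F) (hx : Transcendental K x) [FiniteDimensional K⟮x⟯ F]
    (hd : DiffData K F x) (S : Finset K)
    (hS : ∀ c ∉ S, {v : Place K F | 0 < v.ord (x - algebraMap K F c)}.ncard
      = Module.finrank K⟮x⟯ F)
    (ω : Ω[F⁄K]) (hω : ω ≠ 0) (D : Divisor K F) (hD : ∀ v, D v = v.ordDifferential ω) :
    Divisor.degree D = -2 * (Module.finrank K⟮x⟯ F : ℤ)
      + ∑ c ∈ S, ((Module.finrank K⟮x⟯ F : ℤ)
          - ({v : Place K F | 0 < v.ord (x - algebraMap K F c)}.ncard : ℤ))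
      + ((Module.finrank K⟮x⟯ F : ℤ) - ({v : Place K F | v.ord x < 0}.ncard : ℤ)) := by
  classical
  have : IsFF1 K F := IsFF1.of_exists x
  set n : ℤ := (Module.finrank K⟮x⟯ F : ℤ) with hn
  -- fibres
  have hfib : ∀ c : K, ∃ s : Finset (Place K F),
      (∀ v, v ∈ s ↔ 0 < v.ord (x - algebraMap K F c)) ∧
      ∑ v ∈ s, v.ord (x - algebraMap K F c) = n := by
    intro c
    obtain ⟨s, hs, hsum⟩ := exists_finset_ord_pos _ (transcendental_sub_const hx c)
    rw [adjoin_simple_sub_const] at hsum
    exact ⟨s, hs, hsum⟩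
  choose sc hsc_mem hsc_sum using hfib
  obtain ⟨sinf, hsinf_mem, hsinf_sum⟩ := exists_finset_ord_neg x hx
  have hcard : ∀ c : K, {v : Place K F | 0 < v.ord (x - algebraMap K F c)}.ncard = (sc c).card := by
    intro c
    have : {v : Place K F | 0 < v.ord (x - algebraMap K F c)} = ↑(sc c) := by
      ext v; simp [hsc_mem]
    rw [this, Set.ncard_coe_finset]
  have hcardinf : {v : Place K F | v.ord x < 0}.ncard = sinf.card := by
    have : {v : Place K F | v.ord x < 0} = ↑sinf := by
      ext v; simp [hsinf_mem]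
    rw [this, Set.ncard_coe_finset]
  simp only [hcard, hcardinf] at hS ⊢
  -- the differential `dx`
  set δ : Place K F → ℤ := fun v => v.ordDifferential (KaehlerDifferential.D K F x) with hδ
  have hDsub : ∀ c : K, KaehlerDifferential.D K F (x - algebraMap K F c)
      = KaehlerDifferential.D K F x := by
    intro c
    rw [map_sub, Derivation.map_algebraMap, sub_zero]
  have hδc : ∀ c v, v ∈ sc c → δ v = v.ord (x - algebraMap K F c) - 1 := by
    intro c v hv
    rw [hsc_mem] at hv
    rw [hδ]
    simp only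
    rw [← hDsub c, hd.ordDiff_D v _ (by omega)]
  have hδinf : ∀ v, v ∈ sinf → δ v = v.ord x - 1 := by
    intro v hv
    rw [hsinf_mem] at hv
    exact hd.ordDiff_D v _ (by omega)
  have hord_nonneg : ∀ c v, v ∈ sc c → 0 ≤ v.ord x := by
    intro c v hv
    rw [hsc_mem] at hv
    apply ord_nonneg_of_mem
    have h1 := mem_of_ord_nonneg v hv.le
    have := add_mem h1 (v.algebraMap_mem' c)
    rwa [sub_add_cancel] at this
  have hδrest : ∀ v, v ∉ sinf ∪ S.biUnion sc → δ v = 0 := by
    intro v hv
    rw [Finset.mem_union, not_or, hsinf_mem, Finset.mem_biUnion] at hv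
    obtain ⟨c, hc⟩ := exists_const_of_ord_nonneg v (x := x) (by omega)
    rcases hc with hc | hc
    · exact absurd (hc ▸ isAlgebraic_algebraMap (A := F) c) hx
    · have hvc : v ∈ sc c := (hsc_mem c v).mpr hc
      have hcS : c ∉ S := fun h => hv.2 ⟨c, h, hvc⟩
      have h1 := eq_one_of_sum_eq_card (sc c) (fun v => v.ord (x - algebraMap K F c))
        (fun w hw => by have := (hsc_mem c w).mp hw; omega)
        (by rw [hsc_sum, hn, ← hS c hcS]) v hvc
      rw [hδc c v hvc]
      omega
  have hsumδ : ∑ᶠ v : Place K F, δ v = (-n - sinf.card) + ∑ c ∈ S, (n - (sc c).card) := by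
    rw [finsum_eq_sum_of_support_subset (s := sinf ∪ S.biUnion sc)]
    · rw [Finset.sum_union, Finset.sum_biUnion]
      · congr 1
        · rw [Finset.sum_congr rfl (fun v hv => hδinf v hv), Finset.sum_sub_distrib, hsinf_sum]
          simp [hn]
        · apply Finset.sum_congr rfl
          intro c _
          rw [Finset.sum_congr rfl (fun v hv => hδc c v hv), Finset.sum_sub_distrib, hsc_sum]
          simp
      · intro c _ c' _ hne
        show Disjoint (sc c) (sc c')
        rw [Finset.disjoint_left]
        intro v h1 h2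
        exact hne (const_unique v ((hsc_mem c v).mp h1) ((hsc_mem c' v).mp h2))
      · rw [Finset.disjoint_left]
        intro v h1 h2
        rw [Finset.mem_biUnion] at h2
        obtain ⟨c, -, hc⟩ := h2
        have := hord_nonneg c v hc
        rw [hsinf_mem] at h1
        omega
    · intro v hv
      by_contra hcon
      exact hv (hδrest v hcon)
  have hδfin : (Function.support δ).Finite := by
    apply (sinf ∪ S.biUnion sc).finite_toSet.subset
    intro v hv
    by_contra hcon
    exact hv (hδrest v hcon)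
  -- `ω = f dx`
  obtain ⟨f, hf⟩ := hd.span ω
  have hf0 : f ≠ 0 := by
    rintro rfl
    rw [zero_smul] at hf
    exact hω hf
  have hDv : ∀ v, D v = v.ord f + δ v := by
    intro v
    rw [hD, hf, hd.ordDiff_smul v f _ hf0 hd.D_ne_zero]
  rw [degree_eq_finsum, finsum_congr hDv, finsum_add_distrib (finite_ord_ne_zero f) hδfin,
    finsum_ord_eq_zero, hsumδ]
  ring

end Fermat.Agent.S24.FF
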