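/-
S24-D2 (task 78), owner helper26.  Parity of `card X + orb a + orb b + orb (a*b)`.
-/
import Fermat.Agent.S24.Defs

set_option autoImplicit false

namespace Fermat.Agent.S24.Parity

open Fermat.Agent.S24 Equiv Equiv.Perm

section Perm

variable {X : Type*} [Fintype X] [DecidableEq X]

/-- auxiliary classifying map: a point goes to its cycle factor, or to itself if it is fixed. -/
noncomputable def classify (σ : Perm X) (x : X) :
    (σ.cycleFactorsFinset : Set (Perm X)) ⊕ (Function.fixedPoints σ) :=
  if h : x ∈ σ.support then Sum.inl ⟨σ.cycleOf x, cycleOf_mem_cycleFactorsFinset_iff.mpr h⟩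
  else Sum.inr ⟨x, notMem_support.mp h⟩

theorem classify_eq_iff (σ : Perm X) (x y : X) :
    classify σ x = classify σ y ↔ SameCycle σ x y := by
  unfold classify
  constructor
  · intro h
    by_cases hx : x ∈ σ.support <;> by_cases hy : y ∈ σ.support
    · rw [dif_pos hx, dif_pos hy] at h
      have h1 : σ.cycleOf x = σ.cycleOf y := congrArg Subtype.val (Sum.inl.inj h)
      have h2 : y ∈ (σ.cycleOf y).support :=
        mem_support_cycleOf_iff.mpr ⟨SameCycle.refl _ _, hy⟩
      rw [← h1] at h2
      exact (mem_support_cycleOf_iff.mp h2).1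
    · rw [dif_pos hx, dif_neg hy] at h; exact absurd h (by simp)
    · rw [dif_neg hx, dif_pos hy] at h; exact absurd h (by simp)
    · rw [dif_neg hx, dif_neg hy] at h
      have h1 : x = y := congrArg Subtype.val (Sum.inr.inj h)
      rw [h1]
  · intro h
    have hiff : x ∈ σ.support ↔ y ∈ σ.support := by
      rw [mem_support, mem_support, not_iff_not]; exact h.apply_eq_self_iff
    by_cases hx : x ∈ σ.support
    · have hy := hiff.mp hx
      rw [dif_pos hx, dif_pos hy]
      congr 2
      exact h.cycleOf_eq
    · have hy : y ∉ σ.support := fun hy => hx (hiff.mpr hy)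
      rw [dif_neg hx, dif_neg hy]
      congr 2
      exact h.eq_of_left (notMem_support.mp hx)

theorem classify_surjective (σ : Perm X) : Function.Surjective (classify σ) := by
  rintro (⟨c, hc⟩ | ⟨x, hx⟩)
  · have hc' : c ∈ σ.cycleFactorsFinset := hc
    obtain ⟨hcyc, hcσ⟩ := mem_cycleFactorsFinset_iff.mp hc'
    obtain ⟨a, ha, -⟩ := hcyc
    have ha' : a ∈ c.support := mem_support.mpr ha
    have hca : c = σ.cycleOf a := cycle_is_cycleOf ha' hc'
    have haσ : a ∈ σ.support := by
      rw [← cycleOf_mem_cycleFactorsFinset_iff, ← hca]; exact hc'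
    refine ⟨a, ?_⟩
    unfold classify
    rw [dif_pos haσ]
    congr 2
    exact hca.symm
  · refine ⟨x, ?_⟩
    unfold classify
    rw [dif_neg (notMem_support.mpr hx)]

/-- The number of cycles (including trivial ones) of a permutation. -/
theorem card_quotient_sameCycle (σ : Perm X) :
    Nat.card (Quotient (SameCycle.setoid σ)) =
      Multiset.card σ.cycleType + (Fintype.card X - σ.cycleType.sum) := by
  classical
  let F : Quotient (SameCycle.setoid σ) →
      (σ.cycleFactorsFinset : Set (Perm X)) ⊕ (Function.fixedPoints σ) :=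
    Quotient.lift (classify σ) (fun x y h => (classify_eq_iff σ x y).mpr h)
  have hF : Function.Bijective F := by
    constructor
    · intro a b
      induction a using Quotient.inductionOn
      induction b using Quotient.inductionOn
      intro h
      exact Quotient.sound ((classify_eq_iff σ _ _).mp h)
    · intro z
      obtain ⟨x, hx⟩ := classify_surjective σ z
      exact ⟨Quotient.mk _ x, hx⟩
  rw [Nat.card_congr (Equiv.ofBijective F hF), Nat.card_sum, Nat.card_eq_fintype_card,
    Nat.card_eq_fintype_card, card_fixedPoints]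
  congr 1
  rw [cycleType_def, Multiset.card_map]
  simp

/-- `sign σ = (-1) ^ (card X + number of cycles)`. -/
theorem sign_eq_neg_one_pow (σ : Perm X) :
    sign σ = (-1 : ℤˣ) ^ (Fintype.card X + Nat.card (Quotient (SameCycle.setoid σ))) := by
  rw [sign_of_cycleType, card_quotient_sameCycle]
  have hle : σ.cycleType.sum ≤ Fintype.card X := sum_cycleType_le σ
  obtain ⟨d, hd⟩ := Nat.exists_eq_add_of_le hle
  rw [hd, Nat.add_sub_cancel_left]
  have : σ.cycleType.sum + d + (Multiset.card σ.cycleType + d)
      = (σ.cycleType.sum + Multiset.card σ.cycleType) + 2 * d := by ring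
  rw [this, pow_add _ _ (2 * d), pow_mul]
  simp

end Perm

section Action

variable {G X : Type*} [Group G] [MulAction G X]

theorem orbitRel_zpowers_eq (δ : G) :
    MulAction.orbitRel (Subgroup.zpowers δ) X = SameCycle.setoid (MulAction.toPerm δ) := by
  ext x y
  rw [MulAction.orbitRel_apply, MulAction.mem_orbit_iff]
  show _ ↔ SameCycle (MulAction.toPerm δ) x y
  constructor
  · rintro ⟨⟨g, n, rfl⟩, hg⟩
    refine ⟨-n, ?_⟩
    have hg' : δ ^ n • y = x := hg
    have e : (MulAction.toPerm δ : Perm X) ^ (-n) = MulAction.toPerm (δ ^ (-n)) :=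
      (map_zpow (MulAction.toPermHom G X) δ (-n)).symm
    rw [← hg', e]
    show δ ^ (-n) • (δ ^ n • y) = y
    rw [smul_smul, ← zpow_add]; simp
  · rintro ⟨n, hn⟩
    refine ⟨⟨δ ^ (-n), -n, rfl⟩, ?_⟩
    show δ ^ (-n) • y = x
    have e : (MulAction.toPerm δ : Perm X) ^ n = MulAction.toPerm (δ ^ n) :=
      (map_zpow (MulAction.toPermHom G X) δ n).symm
    rw [← hn, e]
    show δ ^ (-n) • (δ ^ n • x) = x
    rw [smul_smul, ← zpow_add]; simp

theorem orb_eq (δ : G) :
    orb X δ = Nat.card (Quotient (SameCycle.setoid (MulAction.toPerm δ : Perm X))) := by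
  unfold orb MulAction.orbitRel.Quotient
  rw [orbitRel_zpowers_eq]

theorem even_card_add_orb [Finite X] (a b : G) :
    Even (Nat.card X + orb X a + orb X b + orb X (a * b)) := by
  classical
  have : Fintype X := Fintype.ofFinite X
  have h1 := sign_eq_neg_one_pow (MulAction.toPerm a : Perm X)
  have h2 := sign_eq_neg_one_pow (MulAction.toPerm b : Perm X)
  have h3 := sign_eq_neg_one_pow (MulAction.toPerm (a * b) : Perm X)
  have hmul : (MulAction.toPerm (a * b) : Perm X) = MulAction.toPerm a * MulAction.toPerm b :=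
    map_mul (MulAction.toPermHom G X) a b
  rw [hmul, Perm.sign_mul, h1, h2, ← orb_eq, ← orb_eq, ← hmul, ← orb_eq, ← pow_add,
    ← Nat.card_eq_fintype_card] at h3
  -- compare parities
  have h4 : Even ((Nat.card X + orb X a + (Nat.card X + orb X b)) + (Nat.card X + orb X (a * b))) := by
    rw [← neg_one_pow_eq_one_iff_even (R := ℤˣ) (by decide), pow_add, h3, ← pow_add]
    exact Even.neg_one_pow ⟨_, rfl⟩
  have h5 : (Nat.card X + orb X a + (Nat.card X + orb X b)) + (Nat.card X + orb X (a * b))
      = (Nat.card X + orb X a + orb X b + orb X (a * b)) + 2 * Nat.card X := by ring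
  rw [h5] at h4
  exact (Nat.even_add.mp h4).mpr (even_two_mul _)

end Action

end Fermat.Agent.S24.Parity
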