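import Fermat.Agent.S24.Defs

/-!
S24-D3: orbit count of an element acting with prime order, and basic facts on `S`, `S * T`
acting on `SL(2,ℤ) ⧸ Γ₀(N)`.
-/

set_option autoImplicit false

namespace Fermat.Agent.S24.PrimeOrb

open scoped MatrixGroups
open MulAction

/-- The orbits of `zpowers δ` only depend on the permutation induced by `δ`. -/
theorem orb_eq_orb_toPerm {G X : Type*} [Group G] [MulAction G X] (δ : G) :
    orb X δ = orb X (MulAction.toPerm δ : Equiv.Perm X) := by
  unfold orb
  have h : orbitRel (Subgroup.zpowers δ) X =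
      orbitRel (Subgroup.zpowers (MulAction.toPerm δ : Equiv.Perm X)) X := by
    ext x y
    rw [orbitRel_apply, orbitRel_apply, mem_orbit_iff, mem_orbit_iff]
    constructor
    · rintro ⟨⟨g, k, rfl⟩, hg⟩
      refine ⟨⟨(MulAction.toPerm δ : Equiv.Perm X) ^ k, k, rfl⟩, ?_⟩
      rw [← hg]
      change ((MulAction.toPerm δ : Equiv.Perm X) ^ k) y = δ ^ k • y
      rw [← MulAction.toPermHom_apply, ← map_zpow]
      rfl
    · rintro ⟨⟨g, k, rfl⟩, hg⟩
      refine ⟨⟨δ ^ k, k, rfl⟩, ?_⟩
      rw [← hg]
      change δ ^ k • y = ((MulAction.toPerm δ : Equiv.Perm X) ^ k) y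
      rw [← MulAction.toPermHom_apply, ← map_zpow]
      rfl
  unfold orbitRel.Quotient
  rw [h]

theorem prime_mul_orb {G X : Type*} [Group G] [MulAction G X] [Finite X] (δ : G) (p : ℕ)
    (hp : p.Prime) (hδ : ∀ x : X, δ ^ p • x = x) :
    p * orb X δ = Nat.card X + (p - 1) * Nat.card (MulAction.fixedBy X δ) := by
  classical
  let _ : Fintype X := Fintype.ofFinite X
  set σ : Equiv.Perm X := MulAction.toPerm δ with hσ
  have hσp : σ ^ p = 1 := by
    ext x
    rw [hσ, ← MulAction.toPermHom_apply, ← map_pow]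
    exact hδ x
  have hfix : (MulAction.fixedBy X δ) = MulAction.fixedBy X σ := by
    ext x
    simp [MulAction.mem_fixedBy, hσ]
  rw [orb_eq_orb_toPerm, ← hσ, hfix]
  have hB := MulAction.sum_card_fixedBy_eq_card_orbits_mul_card_group (Subgroup.zpowers σ) X
  have horb : orb X σ = Fintype.card (Quotient (orbitRel (Subgroup.zpowers σ) X)) := by
    unfold orb orbitRel.Quotient
    rw [Nat.card_eq_fintype_card]
  rw [horb, Nat.card_eq_fintype_card, Nat.card_eq_fintype_card]
  by_cases h1 : σ = 1
  · have hfixall : Fintype.card (MulAction.fixedBy X σ) = Fintype.card X := by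
      rw [← Fintype.card_congr (Equiv.Set.univ X)]
      refine Fintype.card_congr (Equiv.setCongr ?_)
      ext x; simp [h1]
    have hsub : Subsingleton (Subgroup.zpowers σ) := by
      rw [h1, Subgroup.zpowers_one_eq_bot]; infer_instance
    have hcard : Fintype.card (Subgroup.zpowers σ) = 1 :=
      Fintype.card_eq_one_iff.mpr ⟨1, fun y => Subsingleton.elim _ _⟩
    rw [hcard, mul_one, Fintype.sum_subsingleton _ (1 : Subgroup.zpowers σ)] at hB
    have h2 : Fintype.card (MulAction.fixedBy X (1 : Subgroup.zpowers σ)) = Fintype.card X := by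
      rw [← Fintype.card_congr (Equiv.Set.univ X)]
      refine Fintype.card_congr (Equiv.setCongr ?_)
      ext x; simp
    rw [← hB, h2, hfixall]
    obtain ⟨m, rfl⟩ : ∃ m, p = m + 1 := ⟨p - 1, by have := hp.pos; omega⟩
    simp only [Nat.add_sub_cancel]
    ring
  · have : Fact p.Prime := ⟨hp⟩
    have hord : orderOf σ = p := orderOf_eq_prime hσp h1
    have hcard : Fintype.card (Subgroup.zpowers σ) = p := by
      rw [← Nat.card_eq_fintype_card, Nat.card_zpowers, hord]
    have hterm : ∀ a : Subgroup.zpowers σ, a ≠ 1 →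
        Fintype.card (MulAction.fixedBy X a) = Fintype.card (MulAction.fixedBy X σ) := by
      intro a ha
      refine Fintype.card_congr (Equiv.setCongr ?_)
      have htop : Subgroup.zpowers a = ⊤ := by
        exact zpowers_eq_top_of_prime_card (by rw [Nat.card_eq_fintype_card, hcard]) ha
      obtain ⟨j, hj⟩ : (⟨σ, Subgroup.mem_zpowers σ⟩ : Subgroup.zpowers σ) ∈ Subgroup.zpowers a := by
        rw [htop]; trivial
      obtain ⟨k, hk⟩ := a.2
      ext x
      constructor
      · intro hx
        have h3 := MulAction.mem_fixedBy_zpow hx j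
        have hj' : a ^ j = ⟨σ, Subgroup.mem_zpowers σ⟩ := hj
        rw [hj'] at h3
        exact h3
      · intro hx
        have h3 := MulAction.mem_fixedBy_zpow hx k
        have hk' : σ ^ k = (a : Equiv.Perm X) := hk
        rw [hk'] at h3
        exact h3
    rw [hcard, Fintype.sum_eq_add_sum_compl (1 : Subgroup.zpowers σ)] at hB
    have h2 : Fintype.card (MulAction.fixedBy X (1 : Subgroup.zpowers σ)) = Fintype.card X := by
      rw [← Fintype.card_congr (Equiv.Set.univ X)]
      refine Fintype.card_congr (Equiv.setCongr ?_)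
      ext x; simp
    have h4 : ∑ a ∈ ({1}ᶜ : Finset (Subgroup.zpowers σ)), Fintype.card (MulAction.fixedBy X a) =
        (p - 1) * Fintype.card (MulAction.fixedBy X σ) := by
      rw [Finset.sum_congr rfl (fun a ha => hterm a (by simpa using ha)), Finset.sum_const,
        Finset.card_compl, hcard, Finset.card_singleton, smul_eq_mul]
    rw [h2, h4] at hB
    rw [hB, mul_comm]

variable {N : ℕ}

theorem neg_one_smul_coset (x : SL(2, ℤ) ⧸ CongruenceSubgroup.Gamma0 N) :
    (-1 : SL(2, ℤ)) • x = x := by
  induction x using QuotientGroup.induction_on with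
  | H g =>
    rw [MulAction.Quotient.smul_mk, QuotientGroup.eq]
    have : ((-1 : SL(2, ℤ)) • g)⁻¹ * g = -1 := by
      rw [smul_eq_mul, mul_inv_rev]
      have h1 : (-1 : SL(2, ℤ))⁻¹ = -1 := by
        rw [inv_eq_iff_mul_eq_one]; simp
      rw [h1]
      simp
    rw [this, CongruenceSubgroup.Gamma0_mem]
    simp

theorem S_sq_smul (x : SL(2, ℤ) ⧸ CongruenceSubgroup.Gamma0 N) : ModularGroup.S ^ 2 • x = x := by
  have h : ModularGroup.S ^ 2 = (-1 : SL(2, ℤ)) := by
    apply Subtype.ext
    rw [pow_two, Matrix.SpecialLinearGroup.coe_mul, ModularGroup.S_mul_S_eq]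
    simp
  rw [h, neg_one_smul_coset]

theorem ST_cube_smul (x : SL(2, ℤ) ⧸ CongruenceSubgroup.Gamma0 N) :
    (ModularGroup.S * ModularGroup.T) ^ 3 • x = x := by
  have h : (ModularGroup.S * ModularGroup.T) ^ 3 = (-1 : SL(2, ℤ)) := by
    apply Subtype.ext
    simp only [pow_succ, pow_zero, one_mul, Matrix.SpecialLinearGroup.coe_mul, ModularGroup.coe_S,
      ModularGroup.coe_T, Matrix.mul_fin_two]
    ext i j
    fin_cases i <;> fin_cases j <;> simp
  rw [h, neg_one_smul_coset]

theorem closure_S_T :
    Subgroup.closure {ModularGroup.S, ModularGroup.T} = (⊤ : Subgroup SL(2, ℤ)) :=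
  SpecialLinearGroup.SL2Z_generators

end Fermat.Agent.S24.PrimeOrb
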