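/-
S24-D1 (task 77), owner helper125.  Ree/Scott inequality for orbit counts:
`orb a + orb b + orb (a*b) ≤ card X + 2` for a transitive action of a group generated by `a, b`.
Proof: Scott's lemma, linear algebra on `X → ℚ`.
-/
import Fermat.Agent.S24.Defs

set_option autoImplicit false

namespace Fermat.Agent.S24.Ree

open Module

variable {G X : Type*} [Group G] [MulAction G X]

/-- Translation operator on functions: `(tr g v) x = v (g • x)`. -/
noncomputable def tr (g : G) : (X → ℚ) →ₗ[ℚ] (X → ℚ) :=
  LinearMap.funLeft ℚ ℚ (fun x : X => g • x)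

@[simp] lemma tr_apply (g : G) (v : X → ℚ) (x : X) : tr g v x = v (g • x) := rfl

lemma tr_mul (g h : G) (v : X → ℚ) : tr (g * h) v = tr h (tr g v) := by
  ext x; simp [mul_smul]

lemma tr_one (v : X → ℚ) : tr (1 : G) v = v := by
  ext x; simp

/-- `1 - tr g`. -/
noncomputable def dl (g : G) : (X → ℚ) →ₗ[ℚ] (X → ℚ) := LinearMap.id - tr g

@[simp] lemma dl_apply (g : G) (v : X → ℚ) : dl g v = v - tr g v := rfl

lemma dl_mul (a b : G) (v : X → ℚ) : dl (a * b) v = dl b v + tr b (dl a v) := by
  simp only [dl_apply, tr_mul, map_sub]; abel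

/-- The number of orbits of `⟨g⟩` is at most the dimension of the space of `g`-invariants. -/
lemma orb_le_finrank_ker [Finite X] (g : G) :
    orb X g ≤ finrank ℚ (LinearMap.ker (dl (X := X) g)) := by
  classical
  set Q := MulAction.orbitRel.Quotient (Subgroup.zpowers g) X with hQ
  have : Finite Q := Quotient.finite _
  have : Fintype Q := Fintype.ofFinite Q
  let mk : X → Q := Quotient.mk _
  have hmk : Function.Surjective mk := Quotient.mk_surjective
  let L : (Q → ℚ) →ₗ[ℚ] (X → ℚ) := LinearMap.funLeft ℚ ℚ mk
  have hL : Function.Injective L := LinearMap.funLeft_injective_of_surjective ℚ ℚ mk hmk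
  have hmem : ∀ φ : Q → ℚ, L φ ∈ LinearMap.ker (dl (X := X) g) := by
    intro φ
    rw [LinearMap.mem_ker]
    ext x
    have : mk (g • x) = mk x := by
      apply Quotient.sound
      change (MulAction.orbitRel (Subgroup.zpowers g) X) (g • x) x
      rw [MulAction.orbitRel_apply]
      exact ⟨⟨g, Subgroup.mem_zpowers g⟩, rfl⟩
    simp [L, LinearMap.funLeft_apply, this]
  let L' : (Q → ℚ) →ₗ[ℚ] LinearMap.ker (dl (X := X) g) := L.codRestrict _ hmem
  have hL' : Function.Injective L' := by
    intro φ ψ h
    apply hL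
    exact congrArg Subtype.val h
  have h1 := LinearMap.finrank_le_finrank_of_injective hL'
  have h2 : finrank ℚ (Q → ℚ) = Nat.card Q := by
    rw [Module.finrank_fintype_fun_eq_card, Nat.card_eq_fintype_card]
  rw [h2] at h1
  exact h1

/-- General rank inequality: `rank f ≤ rank (g ∘ f) + dim ker g`. -/
lemma finrank_range_le {V W U : Type*} [AddCommGroup V] [Module ℚ V] [AddCommGroup W] [Module ℚ W]
    [AddCommGroup U] [Module ℚ U] [FiniteDimensional ℚ V] [FiniteDimensional ℚ W]
    (f : V →ₗ[ℚ] W) (g : W →ₗ[ℚ] U) :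
    finrank ℚ (LinearMap.range f) ≤
      finrank ℚ (LinearMap.range (g ∘ₗ f)) + finrank ℚ (LinearMap.ker g) := by
  have h := LinearMap.finrank_range_add_finrank_ker (g.domRestrict (LinearMap.range f))
  have h1 : LinearMap.range (g.domRestrict (LinearMap.range f)) = LinearMap.range (g ∘ₗ f) := by
    ext u
    constructor
    · rintro ⟨⟨w, v, rfl⟩, rfl⟩
      exact ⟨v, rfl⟩
    · rintro ⟨v, rfl⟩
      exact ⟨⟨f v, v, rfl⟩, rfl⟩
  have h2 : finrank ℚ (LinearMap.ker (g.domRestrict (LinearMap.range f))) ≤
      finrank ℚ (LinearMap.ker g) := by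
    let ι : LinearMap.ker (g.domRestrict (LinearMap.range f)) →ₗ[ℚ] LinearMap.ker g :=
      ((LinearMap.range f).subtype ∘ₗ (LinearMap.ker (g.domRestrict (LinearMap.range f))).subtype).codRestrict
        _ (fun x => by
          have := x.2
          rw [LinearMap.mem_ker] at this ⊢
          exact this)
    apply LinearMap.finrank_le_finrank_of_injective (f := ι)
    intro x y hxy
    apply Subtype.ext
    apply Subtype.ext
    have h3 : ((ι x : LinearMap.ker g) : W) = ((ι y : LinearMap.ker g) : W) :=
      congrArg Subtype.val hxy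
    exact h3
  rw [h1] at h
  omega

/-- Functions invariant under `a` and `b` are constant. -/
lemma const_of_invariant [MulAction.IsPretransitive G X] (a b : G)
    (hgen : Subgroup.closure {a, b} = ⊤) (v : X → ℚ) (ha : tr a v = v) (hb : tr b v = v)
    (x y : X) : v x = v y := by
  have key : ∀ g : G, tr g v = v := by
    intro g
    have hg : g ∈ Subgroup.closure {a, b} := by rw [hgen]; trivial
    induction hg using Subgroup.closure_induction with
    | mem g hg =>
      rcases hg with rfl | hg
      · exact ha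
      · rw [Set.mem_singleton_iff] at hg; subst hg; exact hb
    | one => exact tr_one v
    | mul g h _ _ hg hh => rw [tr_mul, hg, hh]
    | inv g _ hg =>
      have : tr g⁻¹ (tr g v) = v := by rw [← tr_mul, mul_inv_cancel, tr_one]
      rwa [hg] at this
  obtain ⟨g, rfl⟩ := MulAction.exists_smul_eq G y x
  exact congrFun (key g) y

/-- Every `v - tr g v` lies in a submodule containing the ranges of `dl a`, `dl b`. -/
lemma dl_mem_of_closure (a b : G) (hgen : Subgroup.closure {a, b} = ⊤)
    (U : Submodule ℚ (X → ℚ)) (ha : ∀ v, dl a v ∈ U) (hb : ∀ v, dl b v ∈ U) (g : G) :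
    ∀ v, dl g v ∈ U := by
  have hg : g ∈ Subgroup.closure {a, b} := by rw [hgen]; trivial
  induction hg using Subgroup.closure_induction with
  | mem g hg =>
    rcases hg with rfl | hg
    · exact ha
    · rw [Set.mem_singleton_iff] at hg; subst hg; exact hb
  | one => intro v; simp [tr_one]
  | mul g h _ _ hg hh =>
    intro v
    have h1 : dl (g * h) v = dl g v + dl h (tr g v) := by
      simp only [dl_apply, tr_mul]; abel
    rw [h1]
    exact U.add_mem (hg v) (hh _)
  | inv g _ hg =>
    intro v
    have h1 : dl g⁻¹ v = - dl g (tr g⁻¹ v) := by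
      have : tr g (tr g⁻¹ v) = v := by rw [← tr_mul, inv_mul_cancel, tr_one]
      simp only [dl_apply, this]; abel
    rw [h1]
    exact U.neg_mem (hg _)

/-- A submodule containing all `dl g v` contains the augmentation kernel, hence has
codimension at most one. -/
lemma card_le_finrank_add_one [Finite X] [MulAction.IsPretransitive G X]
    (U : Submodule ℚ (X → ℚ)) (hU : ∀ (g : G) v, dl g v ∈ U) :
    Nat.card X ≤ finrank ℚ U + 1 := by
  classical
  have : Fintype X := Fintype.ofFinite X
  rcases isEmpty_or_nonempty X with hX | ⟨⟨x0⟩⟩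
  · simp
  let S : (X → ℚ) →ₗ[ℚ] ℚ := ∑ x : X, LinearMap.proj x
  have hS : ∀ v, S v = ∑ x, v x := by
    intro v; simp [S, LinearMap.sum_apply]
  have hker : LinearMap.ker S ≤ U := by
    intro v hv
    rw [LinearMap.mem_ker, hS] at hv
    have hv' : v = ∑ x, v x • (Pi.single x (1 : ℚ) - Pi.single x0 (1 : ℚ)) := by
      have h1 : v = ∑ x, v x • (Pi.single x (1 : ℚ) : X → ℚ) := by
        ext y
        simp [Finset.sum_apply, Pi.single_apply]
      have h2 : ∑ x, v x • (Pi.single x0 (1 : ℚ) : X → ℚ) = 0 := by
        rw [← Finset.sum_smul, hv, zero_smul]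
      simp only [smul_sub, Finset.sum_sub_distrib, h2, sub_zero]
      exact h1
    rw [hv']
    refine U.sum_mem fun x _ => U.smul_mem _ ?_
    obtain ⟨g, hg⟩ := MulAction.exists_smul_eq G x x0
    have h3 : (Pi.single x (1 : ℚ) - Pi.single x0 (1 : ℚ) : X → ℚ)
        = - dl g (Pi.single x0 (1 : ℚ)) := by
      ext y
      simp only [dl_apply, Pi.sub_apply, Pi.neg_apply, tr_apply, Pi.single_apply]
      have : (g • y = x0) ↔ (y = x) := by
        constructor
        · intro h; rw [← hg] at h; exact (MulAction.injective g h)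
        · rintro rfl; exact hg
      simp only [this]; ring
    rw [h3]
    exact U.neg_mem (hU g _)
  have h1 := LinearMap.finrank_range_add_finrank_ker S
  have h2 : finrank ℚ (LinearMap.range S) ≤ 1 := by
    have := Submodule.finrank_le (LinearMap.range S)
    simpa using this
  have h3 : finrank ℚ (LinearMap.ker S) ≤ finrank ℚ U := Submodule.finrank_mono hker
  have h4 : finrank ℚ (X → ℚ) = Nat.card X := by
    rw [Module.finrank_fintype_fun_eq_card, Nat.card_eq_fintype_card]
  omega

theorem orb_add_le {G X : Type*} [Group G] [MulAction G X] [Finite X]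
    [MulAction.IsPretransitive G X] (a b : G) (hgen : Subgroup.closure {a, b} = ⊤) :
    orb X a + orb X b + orb X (a * b) ≤ Nat.card X + 2 := by
  classical
  have : Fintype X := Fintype.ofFinite X
  have hn : finrank ℚ (X → ℚ) = Nat.card X := by
    rw [Module.finrank_fintype_fun_eq_card, Nat.card_eq_fintype_card]
  -- the two maps
  let RA := LinearMap.range (dl (X := X) a)
  let RB := LinearMap.range (dl (X := X) b)
  let Φ : (X → ℚ) →ₗ[ℚ] (RB × RA) :=
    (dl (X := X) b).rangeRestrict.prod (dl (X := X) a).rangeRestrict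
  let Ψ : (RB × RA) →ₗ[ℚ] (X → ℚ) := RB.subtype.coprod (tr b ∘ₗ RA.subtype)
  have hcomp : Ψ ∘ₗ Φ = dl (X := X) (a * b) := by
    refine LinearMap.ext fun v => ?_
    rw [dl_mul]
    rfl
  -- kernel of Φ
  have hkerΦ : finrank ℚ (LinearMap.ker Φ) ≤ 1 := by
    have hle : LinearMap.ker Φ ≤ Submodule.span ℚ {(fun _ => 1 : X → ℚ)} := by
      intro v hv
      rw [LinearMap.mem_ker] at hv
      have hb : dl b v = 0 := by
        have := congrArg (fun z : RB × RA => (z.1 : X → ℚ)) hv
        simpa [Φ] using this
      have ha : dl a v = 0 := by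
        have := congrArg (fun z : RB × RA => (z.2 : X → ℚ)) hv
        simpa [Φ] using this
      have ha' : tr a v = v := by
        rw [dl_apply, sub_eq_zero] at ha; exact ha.symm
      have hb' : tr b v = v := by
        rw [dl_apply, sub_eq_zero] at hb; exact hb.symm
      rcases isEmpty_or_nonempty X with hX | ⟨⟨x0⟩⟩
      · have : v = 0 := Subsingleton.elim _ _
        rw [this]; exact Submodule.zero_mem _
      · rw [Submodule.mem_span_singleton]
        refine ⟨v x0, ?_⟩
        ext y
        simp [const_of_invariant a b hgen v ha' hb' x0 y]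
    calc finrank ℚ (LinearMap.ker Φ) ≤ finrank ℚ (Submodule.span ℚ {(fun _ => 1 : X → ℚ)}) :=
          Submodule.finrank_mono hle
      _ ≤ 1 := by
          have := finrank_span_le_card (R := ℚ) ({(fun _ => 1 : X → ℚ)} : Set (X → ℚ))
          simpa using this
  -- range of Ψ
  have hrangeΨ : Nat.card X ≤ finrank ℚ (LinearMap.range Ψ) + 1 := by
    apply card_le_finrank_add_one (G := G)
    have hb : ∀ v, dl b v ∈ LinearMap.range Ψ := by
      intro v
      exact ⟨(⟨dl b v, v, rfl⟩, 0), by simp [Ψ]⟩
    have htr : ∀ v, tr b (dl a v) ∈ LinearMap.range Ψ := by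
      intro v
      exact ⟨(0, ⟨dl a v, v, rfl⟩), by simp [Ψ]⟩
    have ha : ∀ v, dl a v ∈ LinearMap.range Ψ := by
      intro v
      have : dl a v = dl b (dl a v) + tr b (dl a v) := by
        rw [dl_apply b]; abel
      rw [this]
      exact Submodule.add_mem _ (hb _) (htr _)
    exact fun g v => dl_mem_of_closure a b hgen _ ha hb g v
  have h1 := finrank_range_le Φ Ψ
  rw [hcomp] at h1
  have h2 := LinearMap.finrank_range_add_finrank_ker Φ
  have h3 := LinearMap.finrank_range_add_finrank_ker Ψ
  have h4 : finrank ℚ (RB × RA) = finrank ℚ RB + finrank ℚ RA := Module.finrank_prod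
  have h5 := LinearMap.finrank_range_add_finrank_ker (dl (X := X) a)
  have h6 := LinearMap.finrank_range_add_finrank_ker (dl (X := X) b)
  have h7 := LinearMap.finrank_range_add_finrank_ker (dl (X := X) (a * b))
  have h8 := orb_le_finrank_ker (X := X) a
  have h9 := orb_le_finrank_ker (X := X) b
  have h10 := orb_le_finrank_ker (X := X) (a * b)
  have h4' : finrank ℚ (RB × RA) = finrank ℚ (LinearMap.range (dl (X := X) b)) +
      finrank ℚ (LinearMap.range (dl (X := X) a)) := h4
  omega

end Fermat.Agent.S24.Ree
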