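/-
S24, owner helper144.  Final assembly from the blocks A, B, C, CL, D, F.
-/
import Fermat.Agent.S24.Defs
import Fermat.Agent.S24.Diff.DegreeEq
import Fermat.Agent.S24.CL.Degree
import Fermat.Agent.S24.CL.Count
import Fermat.Agent.S24.Ree
import Fermat.Agent.S24.Parity
import Fermat.Agent.S24.PrimeOrb
import Fermat.Agent.S24.Formal
import Fermat.Agent.S24.B.Main
import Fermat.Agent.Lib.Gamma0Cosets.Card
import Fermat.Agent.Lib.Gamma0Cosets.Fixed
import Fermat.Agent.Lib.Gamma0Cosets.Cusps

set_option autoImplicit false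

namespace Fermat.Agent.S24.Assembly

open AlgebraicCurve ModularCurve IntermediateField KaehlerDifferential CongruenceSubgroup
open scoped MatrixGroups WithZero

section

variable (N : ℕ) [NeZero N]

local notation "Q" => (SL(2, ℤ) ⧸ Gamma0 N)

theorem adjoin_sub_const {K F : Type*} [Field K] [Field F] [Algebra K F] (x : F) (c : K) :
    K⟮x - algebraMap K F c⟯ = K⟮x⟯ := by
  apply le_antisymm
  · rw [adjoin_simple_le_iff]
    exact sub_mem (mem_adjoin_simple_self K x) (IntermediateField.algebraMap_mem _ c)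
  · rw [adjoin_simple_le_iff]
    have h := add_mem (mem_adjoin_simple_self K (x - algebraMap K F c))
      (IntermediateField.algebraMap_mem K⟮x - algebraMap K F c⟯ c)
    rwa [sub_add_cancel] at h

theorem adjoin_inv {K F : Type*} [Field K] [Field F] [Algebra K F] (x : F) :
    K⟮x⁻¹⟯ = K⟮x⟯ := by
  apply le_antisymm
  · rw [adjoin_simple_le_iff]
    exact inv_mem (mem_adjoin_simple_self K x)
  · rw [adjoin_simple_le_iff]
    have h := inv_mem (mem_adjoin_simple_self K x⁻¹)
    rwa [inv_inv] at h

/-- The degree of any canonical divisor. -/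
theorem degree_canonical (ω : Ω[FN N⁄Kbar]) (hω : ω ≠ 0) (D : Divisor Kbar (FN N))
    (hD : ∀ v, D v = v.ordDifferential ω) :
    Divisor.degree D = (Nat.card Q : ℤ) - orb Q (ModularGroup.S * ModularGroup.T)
      - orb Q ModularGroup.S - orb Q ModularGroup.T := by
  classical
  obtain ⟨U⟩ := B.nonempty_uniformization N
  have hx := Formal.transcendental_jF N
  have : FiniteDimensional Kbar⟮jF N⟯ (FN N) :=
    CL.finiteDimensional_of_isUniformization U.isUniformization
      (Formal.exists_finset_adjoin_eq_top N)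
  obtain ⟨Vi, hVi⟩ := U.atI
  obtain ⟨Vr, hVr⟩ := U.atRho
  obtain ⟨Vo, hVo⟩ := U.atInfty
  have hn : Module.finrank Kbar⟮jF N⟯ (FN N) = Nat.card Q := by
    rw [CL.finrank_eq_index' U.isUniformization]; rfl
  have h1728 : {v : Place Kbar (FN N) | 0 < v.ord (jF N - algebraMap Kbar (FN N) 1728)}.ncard
      = orb Q ModularGroup.S :=
    CL.ncard_places_eq_orb hx U.isUniformization (adjoin_sub_const _ _) hVi
  have h0 : {v : Place Kbar (FN N) | 0 < v.ord (jF N - algebraMap Kbar (FN N) 0)}.ncard
      = orb Q (ModularGroup.S * ModularGroup.T) :=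
    CL.ncard_places_eq_orb hx U.isUniformization (adjoin_sub_const _ _) hVr
  have hoo : {v : Place Kbar (FN N) | v.ord (jF N) < 0}.ncard = orb Q ModularGroup.T := by
    rw [← CL.ncard_places_eq_orb hx U.isUniformization (adjoin_inv _) hVo]
    congr 1
    ext v
    simp [Place.ord_inv]
  have hgen : ∀ c ∉ ({0, 1728} : Finset Kbar),
      {v : Place Kbar (FN N) | 0 < v.ord (jF N - algebraMap Kbar (FN N) c)}.ncard
        = Module.finrank Kbar⟮jF N⟯ (FN N) := by
    intro c hc
    simp only [Finset.mem_insert, Finset.mem_singleton, not_or] at hc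
    obtain ⟨V, hV⟩ := U.generic c hc.1 hc.2
    have := CL.ncard_places_eq_orb hx U.isUniformization (adjoin_sub_const _ _) hV
    rw [this, hn, orb]
    have hbot : Subgroup.zpowers (1 : SL(2, ℤ)) = ⊥ := Subgroup.zpowers_one_eq_bot
    refine Nat.card_congr (Equiv.ofBijective (Quotient.mk'' (s₁ := MulAction.orbitRel _ _)) ?_).symm
    constructor
    · intro a b hab
      have h := Quotient.exact hab
      change a ∈ MulAction.orbit _ b at h
      obtain ⟨⟨g, hg⟩, rfl⟩ := h
      rw [hbot, Subgroup.mem_bot] at hg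
      subst hg
      exact one_smul _ _
    · exact Quotient.mk''_surjective
  have hne : (0 : Kbar) ≠ 1728 := by norm_num
  rw [Diff.degree_eq (jF N) hx {0, 1728} hgen ω hω D hD, Finset.sum_pair hne, h0, h1728, hoo, hn]
  ring

theorem main [HasCanonicalDivisor (K := Kbar) (F := FN N)] :
    (genus Kbar (FN N) : ℚ) = genusFormula N := by
  have hx := Formal.transcendental_jF N
  obtain ⟨U⟩ := B.nonempty_uniformization N
  have : FiniteDimensional Kbar⟮jF N⟯ (FN N) :=
    CL.finiteDimensional_of_isUniformization U.isUniformization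
      (Formal.exists_finset_adjoin_eq_top N)
  have hex : ∃ ω : Ω[FN N⁄Kbar], ω ≠ 0 := ⟨_, Diff.D_ne_zero (jF N) hx⟩
  have hdeg := degree_canonical N _ hex.choose_spec (canonicalDivisorOf hex.choose_spec)
    (canonicalDivisorOf_apply _)
  have hle := Ree.orb_add_le (X := Q) ModularGroup.S ModularGroup.T PrimeOrb.closure_S_T
  have hev := Parity.even_card_add_orb (X := Q) ModularGroup.S ModularGroup.T
  have h2 := PrimeOrb.prime_mul_orb (X := Q) ModularGroup.S 2 Nat.prime_two PrimeOrb.S_sq_smul
  have h3 := PrimeOrb.prime_mul_orb (X := Q) (ModularGroup.S * ModularGroup.T) 3 Nat.prime_three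
    PrimeOrb.ST_cube_smul
  have hcard : Nat.card Q = dedekindPsi N := Lib.Gamma0Cosets.card_quotient
  rw [Lib.Gamma0Cosets.card_fixedBy_S, hcard] at h2
  rw [Lib.Gamma0Cosets.card_fixedBy_ST, hcard] at h3
  have hT : orb Q ModularGroup.T = cuspCount N := Lib.Gamma0Cosets.card_orbits_T
  rw [hcard, hT] at hle hev
  rw [hcard, hT] at hdeg
  rw [genus, dif_pos hex, hdeg, genusFormula]
  generalize orb Q ModularGroup.S = a at *
  generalize orb Q (ModularGroup.S * ModularGroup.T) = b at *
  generalize dedekindPsi N = n at *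
  generalize cuspCount N = c at *
  generalize nuTwo N = ν₂ at *
  generalize nuThree N = ν₃ at *
  obtain ⟨k, hk⟩ := hev
  have hm : ∃ m : ℕ, n + 2 = a + b + c + 2 * m := ⟨k + 1 - (a + b + c), by omega⟩
  obtain ⟨m, hm⟩ := hm
  have e1 : ((n : ℤ) - b - a - c + 2).toNat = 2 * m := by omega
  rw [e1, Nat.mul_div_cancel_left _ (by norm_num)]
  have hmQ : (n : ℚ) + 2 = a + b + c + 2 * m := by exact_mod_cast hm
  have h2Q : (2 : ℚ) * a = n + ν₂ := by
    have : 2 * a = n + ν₂ := by simpa using h2
    exact_mod_cast this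
  have h3Q : (3 : ℚ) * b = n + 2 * ν₃ := by
    have : 3 * b = n + 2 * ν₃ := by simpa using h3
    exact_mod_cast this
  linarith

end

end Fermat.Agent.S24.Assembly
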