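import Mathlib

set_option autoImplicit false

namespace Fermat.Agent.S24.JLocal

open UpperHalfPlane ModularForm EisensteinSeries MatrixGroups Filter Topology Derivative Function
open scoped Manifold Real

local notation "𝕢" => Periodic.qParam
local notation "Δ" => ModularForm.discriminant

/-- A `1`-periodic holomorphic function bounded at infinity tends to the value of its cusp
function at `0`. -/
theorem tendsto_cuspFunction_zero {f : ℍ → ℂ} (hper : Periodic (f ∘ ofComplex) ((1 : ℝ) : ℂ))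
    (hhol : MDiff f) (hbdd : IsBoundedAtImInfty f) :
    Tendsto f atImInfty (𝓝 (cuspFunction 1 f 0)) := by
  have han := analyticAt_cuspFunction_zero one_pos hper hhol hbdd
  have : (cuspFunction 1 f ∘ fun τ : ℍ ↦ 𝕢 1 τ : ℍ → ℂ) = f := by
    funext τ
    simpa using eq_cuspFunction τ one_ne_zero hper
  simpa [this] using han.continuousAt.tendsto.comp (qParam_tendsto_atImInfty one_pos)

theorem hasDerivAt_qParam_one (z : ℂ) : HasDerivAt (𝕢 1) (2 * π * Complex.I * 𝕢 1 z) z := by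
  unfold Periodic.qParam
  have h1 : HasDerivAt (fun z : ℂ => 2 * π * Complex.I * z / ((1 : ℝ) : ℂ)) (2 * π * Complex.I) z := by
    simpa using ((hasDerivAt_id z).const_mul (2 * π * Complex.I))
  simpa [mul_comm] using h1.cexp

theorem D_eq_q_mul_deriv {f : ℍ → ℂ} (hper : Periodic (f ∘ ofComplex) ((1 : ℝ) : ℂ))
    (hhol : MDiff f) (hbdd : IsBoundedAtImInfty f) (z : ℍ) :
    D f z = 𝕢 1 z * deriv (cuspFunction 1 f) (𝕢 1 z) := by
  have hev : (f ∘ ofComplex) =ᶠ[𝓝 (z : ℂ)] (cuspFunction 1 f) ∘ (𝕢 1) := by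
    filter_upwards [isOpen_upperHalfPlaneSet.mem_nhds z.im_pos] with w hw
    have := eq_cuspFunction (f := f) ⟨w, hw⟩ one_ne_zero hper
    simp only [Function.comp_apply, ofComplex_apply_of_im_pos hw]
    exact this.symm
  have hd : DifferentiableAt ℂ (cuspFunction 1 f) (𝕢 1 z) :=
    differentiableAt_cuspFunction one_pos hper hhol hbdd
      (Periodic.norm_qParam_lt_one one_pos z.im_pos)
  have hc := (hd.hasDerivAt.comp (z : ℂ) (hasDerivAt_qParam_one z)).congr_of_eventuallyEq hev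
  have hpi : (2 * π * Complex.I : ℂ) ≠ 0 := by
    simp [Real.pi_ne_zero]
  rw [normalizedDerivOfComplex, hc.deriv]
  field_simp

theorem isZeroAtImInfty_D {f : ℍ → ℂ} (hper : Periodic (f ∘ ofComplex) ((1 : ℝ) : ℂ))
    (hhol : MDiff f) (hbdd : IsBoundedAtImInfty f) : IsZeroAtImInfty (D f) := by
  have han := analyticAt_cuspFunction_zero one_pos hper hhol hbdd
  have h1 : Tendsto (fun τ : ℍ ↦ 𝕢 1 τ) atImInfty (𝓝 0) := qParam_tendsto_atImInfty one_pos
  have h2 : Tendsto (fun τ : ℍ ↦ deriv (cuspFunction 1 f) (𝕢 1 τ)) atImInfty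
      (𝓝 (deriv (cuspFunction 1 f) 0)) := han.deriv.continuousAt.tendsto.comp h1
  have h3 := h1.mul h2
  rw [zero_mul] at h3
  refine h3.congr fun τ => ?_
  exact (D_eq_q_mul_deriv hper hhol hbdd τ).symm


section LevelOne

variable {k : ℤ} (f : ModularForm 𝒮ℒ k)

theorem periodic_levelOne : Periodic ((f : ℍ → ℂ) ∘ ofComplex) ((1 : ℝ) : ℂ) :=
  SlashInvariantFormClass.periodic_comp_ofComplex f one_mem_strictPeriods_SL

theorem slash_levelOne (γ : SL(2, ℤ)) : (f : ℍ → ℂ) ∣[k] γ = f :=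
  SlashInvariantForm.slash_action_eqn f _ ⟨γ, rfl⟩

theorem tendsto_levelOne :
    Tendsto f atImInfty (𝓝 ((qExpansion 1 f).coeff 0)) := by
  have h := tendsto_cuspFunction_zero (periodic_levelOne f) f.holo'
    (ModularFormClass.bdd_at_infty f)
  rwa [qExpansion_coeff_zero one_pos
    (analyticAt_cuspFunction_zero one_pos (periodic_levelOne f) f.holo'
    (ModularFormClass.bdd_at_infty f)) (periodic_levelOne f),
    ← cuspFunction_apply_zero one_pos (analyticAt_cuspFunction_zero one_pos (periodic_levelOne f) f.holo'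
    (ModularFormClass.bdd_at_infty f)) (periodic_levelOne f)]

end LevelOne

theorem tendsto_E₄ : Tendsto E₄ atImInfty (𝓝 1) := by
  simpa [E_qExpansion_coeff_zero (k := 4) (by norm_num) ⟨2, rfl⟩] using tendsto_levelOne E₄

theorem tendsto_E₆ : Tendsto E₆ atImInfty (𝓝 1) := by
  simpa [E_qExpansion_coeff_zero (k := 6) (by norm_num) ⟨3, rfl⟩] using tendsto_levelOne E₆

theorem E2_vadd_one (z : ℍ) : E2 ((1 : ℝ) +ᵥ z) = E2 z := by
  have h := congrFun (E2_slash_action ModularGroup.T) z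
  simp only [D2_T, smul_zero, sub_zero] at h
  rw [SL_slash_apply, denom, modular_T_smul, ModularGroup.T] at h
  simpa using h

theorem periodic_E2 : Periodic (E2 ∘ ofComplex) ((1 : ℝ) : ℂ) := by
  intro w
  by_cases! hw : 0 < Complex.im w
  · have : 0 < Complex.im (w + ((1 : ℝ) : ℂ)) := by simp [hw]
    simp only [comp_apply, ofComplex_apply_of_im_pos this, ofComplex_apply_of_im_pos hw]
    rw [← E2_vadd_one ⟨w, hw⟩]
    congr 1
    ext
    simp [add_comm]
  · have : Complex.im (w + ((1 : ℝ) : ℂ)) ≤ 0 := by simpa using hw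
    simp only [comp_apply, ofComplex_apply_of_im_nonpos this, ofComplex_apply_of_im_nonpos hw]

theorem tendsto_E2 : Tendsto E2 atImInfty (𝓝 1) := by
  have han := analyticAt_cuspFunction_zero one_pos periodic_E2 E2_mdifferentiable
    isBoundedAtImInfty_E2
  have h := hasFPowerSeriesOnBall_cuspFunction (h := 1) (f := E2)
    (c := fun m : ℕ => (if m = 0 then 1 else -24 * (ArithmeticFunction.sigma 1 m : ℂ))) one_pos han
    (fun τ ↦ by
      simpa only [Function.Periodic.qParam, Complex.ofReal_one, div_one] using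
        hasSum_qExpansion_E2 (z := τ))
  have h0 : cuspFunction 1 E2 0 = 1 := by
    have := h.coeff_zero (fun _ => 0)
    simpa using this.symm
  have := tendsto_cuspFunction_zero periodic_E2 E2_mdifferentiable isBoundedAtImInfty_E2
  rwa [h0] at this

theorem holo_levelOne {k : ℤ} (f : ModularForm 𝒮ℒ k) : MDiff (f : ℍ → ℂ) :=
  ModularFormClass.holo f

theorem isBoundedAtImInfty_serre {k : ℤ} (f : ModularForm 𝒮ℒ k) :
    IsBoundedAtImInfty (serreDerivative k f) := by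
  have h1 : IsBoundedAtImInfty (D f) :=
    (isZeroAtImInfty_D (periodic_levelOne f) (holo_levelOne f)
      (ModularFormClass.bdd_at_infty f)).isBoundedAtImInfty
  have h2 : IsBoundedAtImInfty (fun z => (k : ℂ) * 12⁻¹ * E2 z * f z) := by
    have h3 : IsBoundedAtImInfty (fun _ : ℍ => (k : ℂ) * 12⁻¹) := Filter.const_boundedAtFilter _ _
    exact (h3.mul isBoundedAtImInfty_E2).mul (ModularFormClass.bdd_at_infty f)
  exact h1.sub h2

/-- The Serre derivative of a level one modular form, as a modular form of weight `k + 2`. -/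
noncomputable def serreForm {k : ℤ} (f : ModularForm 𝒮ℒ k) : ModularForm 𝒮ℒ (k + 2) where
  toFun := serreDerivative k f
  slash_action_eq' := fun _ ⟨γ, hγ⟩ ↦ hγ ▸
    serreDerivative_slash_invariant (holo_levelOne f) (slash_levelOne f γ)
  holo' := serreDerivative_mdifferentiable k (holo_levelOne f)
  bdd_at_cusps' {c} hc := by
    rw [Subgroup.IsArithmetic.isCusp_iff_isCusp_SL2Z] at hc
    rw [OnePoint.isBoundedAt_iff_forall_SL2Z hc]
    intro γ _
    rw [serreDerivative_slash_invariant (holo_levelOne f) (slash_levelOne f γ)]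
    exact isBoundedAtImInfty_serre f

theorem serreForm_apply {k : ℤ} (f : ModularForm 𝒮ℒ k) (z : ℍ) :
    serreForm f z = D f z - (k : ℂ) * 12⁻¹ * E2 z * f z := rfl

theorem tendsto_serreForm {k : ℤ} (f : ModularForm 𝒮ℒ k) :
    Tendsto (serreForm f) atImInfty (𝓝 (- ((k : ℂ) * 12⁻¹ * (qExpansion 1 f).coeff 0))) := by
  have h1 : Tendsto (D f) atImInfty (𝓝 0) :=
    isZeroAtImInfty_D (periodic_levelOne f) (holo_levelOne f) (ModularFormClass.bdd_at_infty f)
  have h2 := ((tendsto_const_nhds (x := (k : ℂ) * 12⁻¹)).mul tendsto_E2).mul (tendsto_levelOne f)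
  have h3 := h1.sub h2
  simp only [mul_one, zero_sub] at h3
  exact h3

/-- Ramanujan's identity for `E₄`, in Serre derivative form. -/
theorem serre_E₄ (z : ℍ) : D E₄ z - 4 * 12⁻¹ * E2 z * E₄ z = - (1 / 3) * E₆ z := by
  obtain ⟨c, hc⟩ : ∃ c : ℂ, c • E₆ = serreForm E₄ :=
    (finrank_eq_one_iff_of_nonzero' E₆ (E_ne_zero _ ⟨3, rfl⟩)).mp
      (Module.rank_eq_one_iff_finrank_eq_one.mp levelOne_weight_six_rank_one) _
  have h1 : Tendsto (serreForm E₄) atImInfty (𝓝 (c * 1)) := by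
    rw [← hc]
    exact (tendsto_const_nhds (x := c)).mul tendsto_E₆
  have h2 := tendsto_serreForm E₄
  rw [E_qExpansion_coeff_zero (k := 4) (by norm_num) ⟨2, rfl⟩] at h2
  have h3 := tendsto_nhds_unique h1 h2
  have h4 : serreForm E₄ z = c * E₆ z := by rw [← hc]; rfl
  rw [serreForm_apply] at h4
  push_cast at h4 h3
  rw [h4]
  rw [mul_one] at h3
  rw [h3]
  ring

theorem mdiff_Δ : MDiff (Δ : ℍ → ℂ) := CuspForm.discriminant.holo'

theorem D_Δ (z : ℍ) : D Δ z = E2 z * Δ z := by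
  have hev : ((Δ : ℍ → ℂ) ∘ ofComplex) =ᶠ[𝓝 (z : ℂ)] fun w => (η w) ^ 24 := by
    filter_upwards [isOpen_upperHalfPlaneSet.mem_nhds z.im_pos] with w hw
    simp [ModularForm.discriminant, ofComplex_apply_of_im_pos hw]
  have hd : DifferentiableAt ℂ η (z : ℂ) := differentiableAt_eta_of_mem_upperHalfPlaneSet z.2
  have hl := logDeriv_eta_eq_E2 z
  rw [logDeriv_apply, div_eq_iff (eta_ne_zero z.2)] at hl
  have hpi : (2 * π * Complex.I : ℂ) ≠ 0 := by
    simp [Real.pi_ne_zero]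
  rw [normalizedDerivOfComplex, hev.deriv_eq]
  have h24 : deriv (fun w => (η w) ^ 24) (z : ℂ) = 24 * (η z) ^ 23 * deriv η z := by
    have := (hd.hasDerivAt.pow 24).deriv
    simpa using! this
  rw [h24, hl, ModularForm.discriminant]
  field_simp
  ring

/-- The analytic `j`-function. -/
noncomputable def jFun (τ : ℍ) : ℂ := E₄ τ ^ 3 / Δ τ

theorem jFun_mul_Δ (τ : ℍ) : jFun τ * Δ τ = E₄ τ ^ 3 :=
  div_mul_cancel₀ _ (discriminant_ne_zero τ)

theorem jFun_mdiff : MDiff jFun :=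
  ((holo_levelOne E₄).pow 3).div mdiff_Δ discriminant_ne_zero

theorem jFun_sub_1728 (τ : ℍ) : jFun τ - 1728 = E₆ τ ^ 2 / Δ τ := by
  have h := discriminant_eq_E₄_cube_sub_E₆_sq τ
  have h0 := discriminant_ne_zero τ
  rw [jFun]
  field_simp
  rw [h]
  ring

theorem D_jFun (τ : ℍ) : D jFun τ = - (E₄ τ ^ 2 * E₆ τ) / Δ τ := by
  have h1 : jFun * Δ = (E₄ : ℍ → ℂ) ^ 3 := by
    ext z; exact jFun_mul_Δ z
  have h2 := congrFun (normalizedDerivOfComplex_mul jFun Δ jFun_mdiff mdiff_Δ) τ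
  have h3 := congrFun (normalizedDerivOfComplex_pow (E₄ : ℍ → ℂ) 3 (holo_levelOne E₄)) τ
  rw [h1, h3] at h2
  simp only [Pi.mul_apply, Pi.add_apply, Pi.pow_apply, D_Δ] at h2
  have h4 := serre_E₄ τ
  have h0 := discriminant_ne_zero τ
  have h5 := jFun_mul_Δ τ
  rw [eq_div_iff h0]
  have h6 : D (E₄ : ℍ → ℂ) τ = - (1 / 3) * E₆ τ + 4 * 12⁻¹ * E2 τ * E₄ τ := by
    linear_combination h4
  rw [h6] at h2
  push_cast at h2
  have h7 : (3 : ℍ → ℂ) τ = 3 := rfl
  rw [h7] at h2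
  linear_combination -h2 - E2 τ * h5

theorem levelOne_smul {k : ℤ} (f : ModularForm 𝒮ℒ k) (γ : SL(2, ℤ)) (z : ℍ) :
    f (γ • z) = denom γ z ^ k * f z := by
  have h := congrFun (slash_levelOne f γ) z
  rw [SL_slash_apply] at h
  have hd : denom γ z ≠ 0 := denom_ne_zero γ z
  rw [← h, zpow_neg]
  field_simp

theorem Δ_smul (γ : SL(2, ℤ)) (z : ℍ) : Δ (γ • z) = denom γ z ^ (12 : ℤ) * Δ z := by
  have h : ((CuspForm.discriminant : ℍ → ℂ) ∣[(12 : ℤ)] γ) z = CuspForm.discriminant z :=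
    congrFun (SlashInvariantForm.slash_action_eqn CuspForm.discriminant _ ⟨γ, rfl⟩) z
  rw [SL_slash_apply] at h
  have hd : denom γ z ≠ 0 := denom_ne_zero γ z
  simp only [CuspForm.coe_discriminant] at h
  rw [← h, zpow_neg]
  field_simp

theorem jFun_smul (γ : SL(2, ℤ)) (τ : ℍ) : jFun (γ • τ) = jFun τ := by
  have hd : denom γ τ ≠ 0 := denom_ne_zero γ τ
  have h0 := discriminant_ne_zero τ
  rw [jFun, jFun, levelOne_smul, Δ_smul]
  have h4 : denom γ τ ^ (4 : ℤ) = denom γ τ ^ 4 := by norm_cast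
  have h12 : denom γ τ ^ (12 : ℤ) = denom γ τ ^ 12 := by norm_cast
  rw [h4, h12]
  field_simp

theorem tendsto_Δ : Tendsto Δ atImInfty (𝓝 0) := discriminant_isZeroAtImInfty

theorem invFun_slash (c : ℂ) (hc : ∀ z : ℍ, E₄ z ^ 3 - c * Δ z ≠ 0) (γ : SL(2, ℤ)) :
    (fun z : ℍ => (E₄ z ^ 3 - c * Δ z)⁻¹) ∣[(-12 : ℤ)] γ = fun z : ℍ => (E₄ z ^ 3 - c * Δ z)⁻¹ := by
  ext z
  have hd : denom γ z ≠ 0 := denom_ne_zero γ z
  have h4 : denom γ z ^ (4 : ℤ) = denom γ z ^ 4 := by norm_cast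
  have h12 : denom γ z ^ (12 : ℤ) = denom γ z ^ 12 := by norm_cast
  rw [SL_slash_apply, levelOne_smul, Δ_smul, neg_neg, h4, h12]
  have := hc z
  have h5 : (denom γ z ^ 4 * E₄ z) ^ 3 - c * (denom γ z ^ 12 * Δ z) =
    denom γ z ^ 12 * (E₄ z ^ 3 - c * Δ z) := by ring
  rw [h5]
  field_simp

/-- Auxiliary: the inverse of a nowhere vanishing `E₄ ^ 3 - c Δ` would be a modular form of weight
`-12`. -/
noncomputable def invForm (c : ℂ) (hc : ∀ z : ℍ, E₄ z ^ 3 - c * Δ z ≠ 0) :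
    ModularForm 𝒮ℒ (-12) where
  toFun := fun z => (E₄ z ^ 3 - c * Δ z)⁻¹
  slash_action_eq' := by
    rintro _ ⟨γ, rfl⟩
    exact invFun_slash c hc γ
  holo' := by
    have h1 : MDiff (fun z : ℍ => E₄ z ^ 3 - c * Δ z) :=
      ((holo_levelOne E₄).pow 3).sub (mdifferentiable_const.mul mdiff_Δ)
    have h2 : MDiff (fun z : ℍ => (1 : ℂ) / (E₄ z ^ 3 - c * Δ z)) :=
      mdifferentiable_const.div h1 hc
    simpa using h2
  bdd_at_cusps' {x} hx := by
    rw [Subgroup.IsArithmetic.isCusp_iff_isCusp_SL2Z] at hx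
    rw [OnePoint.isBoundedAt_iff_forall_SL2Z hx]
    intro γ _
    rw [invFun_slash c hc γ]
    have h1 : Tendsto (fun z : ℍ => E₄ z ^ 3 - c * Δ z) atImInfty (𝓝 (1 ^ 3 - c * 0)) :=
      (tendsto_E₄.pow 3).sub (tendsto_const_nhds.mul tendsto_Δ)
    have h2 : Tendsto (fun z : ℍ => (E₄ z ^ 3 - c * Δ z)⁻¹) atImInfty (𝓝 (1 ^ 3 - c * 0)⁻¹) :=
      h1.inv₀ (by simp)
    exact h2.isBigO_one ℝ

theorem jFun_surjective : Function.Surjective jFun := by
  intro c
  by_contra hcon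
  push Not at hcon
  have hc : ∀ z : ℍ, E₄ z ^ 3 - c * Δ z ≠ 0 := by
    intro z hz
    apply hcon z
    rw [jFun, div_eq_iff (discriminant_ne_zero z)]
    linear_combination hz
  have h0 := congrFun (ModularFormClass.levelOne_neg_weight_eq_zero (by norm_num) (invForm c hc)) I
  exact inv_ne_zero (hc I) h0

theorem analyticOnNhd_comp_ofComplex {F : ℍ → ℂ} (hF : MDiff F) :
    AnalyticOnNhd ℂ (F ∘ ofComplex) upperHalfPlaneSet :=
  (UpperHalfPlane.mdifferentiable_iff.mp hF).analyticOnNhd isOpen_upperHalfPlaneSet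

theorem analyticAt_comp_ofComplex {F : ℍ → ℂ} (hF : MDiff F) (z : ℍ) :
    AnalyticAt ℂ (F ∘ ofComplex) z :=
  analyticOnNhd_comp_ofComplex hF z z.im_pos

theorem deriv_comp_ofComplex (F : ℍ → ℂ) (z : ℍ) :
    deriv (F ∘ ofComplex) z = 2 * π * Complex.I * D F z := by
  have hpi : (2 * π * Complex.I : ℂ) ≠ 0 := by
    simp [Real.pi_ne_zero]
  rw [normalizedDerivOfComplex]
  field_simp

theorem order_ne_top {F : ℍ → ℂ} (hF : MDiff F) {w : ℍ} (hw : F w ≠ 0) (z : ℍ) :
    analyticOrderAt (F ∘ ofComplex) z ≠ ⊤ := by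
  refine (analyticOnNhd_comp_ofComplex hF).analyticOrderAt_ne_top_of_isPreconnected
    (Convex.isPreconnected (convex_halfSpace_im_gt 0)) w.im_pos z.im_pos ?_
  have : analyticOrderAt (F ∘ ofComplex) w = 0 := by
    rw [(analyticAt_comp_ofComplex hF w).analyticOrderAt_eq_zero]
    simpa using hw
  rw [this]
  exact ENat.zero_ne_top

theorem order_eq_zero {F : ℍ → ℂ} (hF : MDiff F) {z : ℍ} (hz : F z ≠ 0) :
    analyticOrderAt (F ∘ ofComplex) z = 0 := by
  rw [(analyticAt_comp_ofComplex hF z).analyticOrderAt_eq_zero]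
  simpa using hz

theorem order_generic (τ₀ : ℍ) (h0 : jFun τ₀ ≠ 0) (h1 : jFun τ₀ ≠ 1728) :
    analyticOrderAt (fun z : ℂ => jFun (ofComplex z) - jFun τ₀) τ₀ = 1 := by
  have hΔ := discriminant_ne_zero τ₀
  have h4 : E₄ τ₀ ≠ 0 := by
    intro h; apply h0; simp [jFun, h]
  have h6 : E₆ τ₀ ≠ 0 := by
    intro h
    apply h1
    have := jFun_sub_1728 τ₀
    rw [h] at this
    simp at this
    linear_combination this
  have hd : deriv (jFun ∘ ofComplex) τ₀ ≠ 0 := by
    rw [deriv_comp_ofComplex, D_jFun]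
    have hpi : (2 * π * Complex.I : ℂ) ≠ 0 := by
      simp [Real.pi_ne_zero]
    refine mul_ne_zero hpi (div_ne_zero (neg_ne_zero.mpr (mul_ne_zero (pow_ne_zero 2 h4) h6)) hΔ)
  have := (analyticAt_comp_ofComplex jFun_mdiff τ₀).analyticOrderAt_sub_eq_one_of_deriv_ne_zero hd
  simpa using this

theorem order_of_power {a : ℕ} (ha : 2 ≤ a) {f u v : ℍ → ℂ} (hf : MDiff f) (hu : MDiff u)
    (hv : MDiff v) {z₀ : ℍ} (c : ℂ)
    (hJ : ∀ z, jFun z - c = f z ^ a * u z) (hD : ∀ z, D jFun z = f z ^ (a - 1) * v z)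
    (hf0 : f z₀ = 0) (hu0 : u z₀ ≠ 0) (hv0 : v z₀ ≠ 0) {w : ℍ} (hw : f w ≠ 0) :
    analyticOrderAt (fun z : ℂ => jFun (ofComplex z) - c) z₀ = a := by
  have hfa := analyticAt_comp_ofComplex hf z₀
  have hua := analyticAt_comp_ofComplex hu z₀
  have hva := analyticAt_comp_ofComplex hv z₀
  obtain ⟨m, hm⟩ := ENat.ne_top_iff_exists.mp (order_ne_top hf hw z₀)
  have hc : jFun z₀ = c := by
    have := hJ z₀
    rw [hf0, zero_pow (by omega), zero_mul] at this
    linear_combination this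
  have e1 : (fun z : ℂ => jFun (ofComplex z) - c) = (f ∘ ofComplex) ^ a * (u ∘ ofComplex) := by
    ext z
    simp [hJ]
  have o1 : analyticOrderAt (fun z : ℂ => jFun (ofComplex z) - c) z₀ = ((a * m : ℕ) : ℕ∞) := by
    rw [e1, analyticOrderAt_mul (hfa.pow a) hua, analyticOrderAt_pow hfa, order_eq_zero hu hu0,
      ← hm]
    simp
  have e2 : deriv (jFun ∘ ofComplex) =ᶠ[𝓝 (z₀ : ℂ)]
      (fun _ => 2 * π * Complex.I) * ((f ∘ ofComplex) ^ (a - 1) * (v ∘ ofComplex)) := by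
    filter_upwards [isOpen_upperHalfPlaneSet.mem_nhds z₀.im_pos] with z hz
    have := deriv_comp_ofComplex jFun ⟨z, hz⟩
    rw [this, hD]
    simp [ofComplex_apply_of_im_pos hz]
  have hpi : (2 * π * Complex.I : ℂ) ≠ 0 := by
    simp [Real.pi_ne_zero]
  have o2 : analyticOrderAt (deriv (jFun ∘ ofComplex)) z₀ = (((a - 1) * m : ℕ) : ℕ∞) := by
    rw [analyticOrderAt_congr e2, analyticOrderAt_mul analyticAt_const ((hfa.pow _).mul hva),
      analyticOrderAt_mul (hfa.pow _) hva, analyticOrderAt_pow hfa, order_eq_zero hv hv0, ← hm,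
      analyticAt_const.analyticOrderAt_eq_zero.mpr hpi]
    simp
  have o3 := (analyticAt_comp_ofComplex jFun_mdiff z₀).analyticOrderAt_deriv_add_one
  have e3 : (fun x : ℂ => (jFun ∘ ofComplex) x - (jFun ∘ ofComplex) z₀) =
      (fun z : ℂ => jFun (ofComplex z) - c) := by
    ext z
    simp [hc]
  rw [e3, o1, o2] at o3
  have o4 : (a - 1) * m + 1 = a * m := by exact_mod_cast o3
  have hm1 : m = 1 := by
    obtain ⟨b, rfl⟩ : ∃ b, a = b + 1 := ⟨a - 1, by omega⟩
    simp only [Nat.add_sub_cancel] at o4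
    nlinarith
  rw [o1, hm1, mul_one]

theorem S_smul_I : ModularGroup.S • (I : ℍ) = I := by
  rw [modular_S_smul]
  ext
  simp [Complex.inv_I]

/-- The point `ρ = -1/2 + (√3/2) i`. -/
noncomputable def rho : ℍ := ⟨-1 / 2 + (Real.sqrt 3 / 2 : ℝ) * Complex.I, by simp⟩

theorem rho_sq : (rho : ℂ) ^ 2 + rho + 1 = 0 := by
  have h3 : ((Real.sqrt 3 : ℝ) : ℂ) ^ 2 = 3 := by
    rw [← Complex.ofReal_pow, Real.sq_sqrt (by norm_num)]; norm_num
  simp only [rho, coe_mk]
  push_cast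
  ring_nf
  rw [Complex.I_sq, h3]
  ring

theorem denom_ST (z : ℍ) : denom (ModularGroup.S * ModularGroup.T : SL(2, ℤ)) z = z + 1 := by
  rw [ModularGroup.denom_apply]
  simp [ModularGroup.S, ModularGroup.T]

theorem ST_smul_rho : (ModularGroup.S * ModularGroup.T) • rho = rho := by
  rw [mul_smul, modular_T_smul, modular_S_smul]
  ext
  have h := rho_sq
  simp only [coe_vadd, Complex.ofReal_one]
  change (-(1 + (rho : ℂ)))⁻¹ = rho
  exact inv_eq_of_mul_eq_one_left (by linear_combination -h)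

theorem E₆_I : E₆ I = 0 := by
  have h := levelOne_smul E₆ ModularGroup.S I
  rw [S_smul_I, ModularGroup.denom_S] at h
  have h6 : ((I : ℍ) : ℂ) ^ (6 : ℤ) = -1 := by
    have : ((I : ℍ) : ℂ) ^ (6 : ℤ) = ((I : ℍ) : ℂ) ^ 6 := by norm_cast
    rw [this, coe_I, show (6 : ℕ) = 2 * 3 by norm_num, pow_mul, Complex.I_sq]
    norm_num
  rw [h6] at h
  have h2 : (2 : ℂ) * E₆ I = 0 := by linear_combination h
  simpa using h2

theorem E₄_rho : E₄ rho = 0 := by
  have h := levelOne_smul E₄ (ModularGroup.S * ModularGroup.T) rho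
  rw [ST_smul_rho, denom_ST] at h
  have hr := rho_sq
  have h4 : ((rho : ℂ) + 1) ^ (4 : ℤ) = - rho - 1 := by
    have : ((rho : ℂ) + 1) ^ (4 : ℤ) = ((rho : ℂ) + 1) ^ 4 := by norm_cast
    rw [this]
    linear_combination ((rho : ℂ) ^ 2 + 3 * rho + 2) * hr
  rw [h4] at h
  have h1 : (rho : ℂ) + 2 ≠ 0 := by
    intro h2
    have : (rho : ℂ) = -2 := by linear_combination h2
    rw [this] at hr
    norm_num at hr
  have h2 : ((rho : ℂ) + 2) * E₄ rho = 0 := by linear_combination h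
  exact (mul_eq_zero.mp h2).resolve_left h1

theorem E₄_I_ne_zero : E₄ I ≠ 0 := by
  intro h
  have h1 := discriminant_eq_E₄_cube_sub_E₆_sq I
  rw [h, E₆_I] at h1
  exact discriminant_ne_zero I (by simpa using h1)

theorem E₆_rho_ne_zero : E₆ rho ≠ 0 := by
  intro h
  have h1 := discriminant_eq_E₄_cube_sub_E₆_sq rho
  rw [h, E₄_rho] at h1
  exact discriminant_ne_zero rho (by simpa using h1)

theorem jFun_I : jFun I = 1728 := by
  have := jFun_sub_1728 I
  rw [E₆_I] at this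
  simp at this
  linear_combination this

theorem jFun_rho : jFun rho = 0 := by
  simp [jFun, E₄_rho]

theorem mdiff_inv_Δ : MDiff (fun z : ℍ => (Δ z)⁻¹) := by
  have h2 : MDiff (fun z : ℍ => (1 : ℂ) / Δ z) :=
    mdifferentiable_const.div mdiff_Δ discriminant_ne_zero
  simpa using h2

theorem order_I : analyticOrderAt (fun z : ℂ => jFun (ofComplex z) - 1728) (I : ℍ) = 2 := by
  have hv : MDiff (fun z : ℍ => - E₄ z ^ 2 / Δ z) :=
    (((holo_levelOne E₄).pow 2).neg).div mdiff_Δ discriminant_ne_zero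
  have := order_of_power (a := 2) le_rfl (f := E₆) (u := fun z => (Δ z)⁻¹)
    (v := fun z => - E₄ z ^ 2 / Δ z) (holo_levelOne E₆) mdiff_inv_Δ hv (z₀ := I) 1728
    (fun z => by rw [jFun_sub_1728, div_eq_mul_inv])
    (fun z => by rw [D_jFun]; ring) E₆_I (inv_ne_zero (discriminant_ne_zero I))
    (div_ne_zero (neg_ne_zero.mpr (pow_ne_zero 2 E₄_I_ne_zero)) (discriminant_ne_zero I))
    E₆_rho_ne_zero
  exact_mod_cast this

theorem order_rho : analyticOrderAt (fun z : ℂ => jFun (ofComplex z)) (rho : ℍ) = 3 := by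
  have hv : MDiff (fun z : ℍ => - E₆ z / Δ z) :=
    ((holo_levelOne E₆).neg).div mdiff_Δ discriminant_ne_zero
  have := order_of_power (a := 3) (by norm_num) (f := E₄) (u := fun z => (Δ z)⁻¹)
    (v := fun z => - E₆ z / Δ z) (holo_levelOne E₄) mdiff_inv_Δ hv (z₀ := rho) 0
    (fun z => by rw [jFun, sub_zero, div_eq_mul_inv])
    (fun z => by rw [D_jFun]; ring) E₄_rho (inv_ne_zero (discriminant_ne_zero rho))
    (div_ne_zero (neg_ne_zero.mpr E₆_rho_ne_zero) (discriminant_ne_zero rho))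
    E₄_I_ne_zero
  simpa using this

end Fermat.Agent.S24.JLocal
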